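import Fermat.Agent.JacRep.Defs
import Fermat.Agent.JacRep.Ops.Semilin
import Fermat.Agent.JacRep.Ops.Basics
import Fermat.Agent.JacRep.Ops.Twist

/-!
# Operations on bundles

Existence and functoriality of the operations on bundles, which are defined by universal
properties (compatible maps with spanning image):
* the trivial bundle (`Bundle.exists_unit`) and isomorphisms;
* pullbacks (`exists_pullback`, `isPullback_unique`, `isPullback_comp`);
* tensor products (`IsTensor`, `exists_tensor`, `isTensor_assoc`, `isTensor_pullback`) and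
  inverses (`exists_inverse`);
* twists by invertible modules of the base (`IsBaseTwist`, `exists_rigidify`,
  `iso_of_baseTwist`), from `Ops/Twist`.
-/

set_option autoImplicit false
set_option linter.style.haveILetI false
set_option linter.unusedSectionVars false
set_option maxHeartbeats 1000000

noncomputable section

open scoped TensorProduct
open TensorProduct

universe u

namespace FLTAgent.JacRep

variable {k : Type u} [Field k] (C : Cover k) (R : Type u) [CommRing R] [Algebra k R]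

namespace Bundle

open Invert

/-- `F` is the tensor product of `E` and `E'`: compatible pairings with spanning images. -/
def IsTensor {C : Cover k} {R : Type u} [CommRing R] [Algebra k R]
    (E E' F : Bundle C R) : Prop :=
  ∃ (μ₀ : E.M₀ →ₗ[C.B₀ R] E'.M₀ →ₗ[C.B₀ R] F.M₀) (μ₁ : E.M₁ →ₗ[C.B₁ R] E'.M₁ →ₗ[C.B₁ R] F.M₁)
    (μ : E.M →ₗ[C.B R] E'.M →ₗ[C.B R] F.M),
    Submodule.span (C.B₀ R) {z | ∃ a b, μ₀ a b = z} = ⊤ ∧
    Submodule.span (C.B₁ R) {z | ∃ a b, μ₁ a b = z} = ⊤ ∧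
      (∀ a b, μ (E.ι₀ a) (E'.ι₀ b) = F.ι₀ (μ₀ a b)) ∧
      ∀ a b, μ (E.ι₁ a) (E'.ι₁ b) = F.ι₁ (μ₁ a b)

/-- `F` is the twist of `E` by the invertible `R`-module `Q`. -/
def IsBaseTwist {C : Cover k} {R : Type u} [CommRing R] [Algebra k R] (E : Bundle C R)
    (Q : Type u) [AddCommGroup Q] [Module R Q] (F : Bundle C R) : Prop :=
  letI := F.rModule₀; letI := F.rModule₁; letI := F.rModule
  ∃ (μ₀ : E.M₀ → Q →ₗ[R] F.M₀) (μ₁ : E.M₁ → Q →ₗ[R] F.M₁) (μ : E.M → Q →ₗ[R] F.M),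
    (∀ a a' w, μ₀ (a + a') w = μ₀ a w + μ₀ a' w) ∧ (∀ (b : C.B₀ R) a w, μ₀ (b • a) w = b • μ₀ a w) ∧
    (∀ a a' w, μ₁ (a + a') w = μ₁ a w + μ₁ a' w) ∧ (∀ (b : C.B₁ R) a w, μ₁ (b • a) w = b • μ₁ a w) ∧
    (∀ a a' w, μ (a + a') w = μ a w + μ a' w) ∧ (∀ (b : C.B R) a w, μ (b • a) w = b • μ a w) ∧
    Submodule.span (C.B₀ R) {z | ∃ a w, μ₀ a w = z} = ⊤ ∧
    Submodule.span (C.B₁ R) {z | ∃ a w, μ₁ a w = z} = ⊤ ∧
      (∀ a w, μ (E.ι₀ a) w = F.ι₀ (μ₀ a w)) ∧ ∀ a w, μ (E.ι₁ a) w = F.ι₁ (μ₁ a w)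

variable {R' : Type u} [CommRing R'] [Algebra k R'] {R'' : Type u} [CommRing R''] [Algebra k R'']

/-- The trivial bundle. -/
theorem exists_unit : ∃ E : Bundle C R, ∃ (e₀ : E.M₀ ≃ₗ[C.B₀ R] C.B₀ R)
    (e₁ : E.M₁ ≃ₗ[C.B₁ R] C.B₁ R) (e : E.M ≃ₗ[C.B R] C.B R),
    (∀ m, e (E.ι₀ m) = C.resB₀ R (e₀ m)) ∧ ∀ m, e (E.ι₁ m) = C.resB₁ R (e₁ m) := by
  let ι₀ : C.B₀ R →ₛₗ[C.resB₀ R] C.B R :=
    { toFun := C.resB₀ R, map_add' := map_add _, map_smul' := fun a b => map_mul (C.resB₀ R) a b }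
  let ι₁ : C.B₁ R →ₛₗ[C.resB₁ R] C.B R :=
    { toFun := C.resB₁ R, map_add' := map_add _, map_smul' := fun a b => map_mul (C.resB₁ R) a b }
  exact ⟨ofSpan (C.B₀ R) (C.B₁ R) (C.B R) ι₀ ι₁ (C.span_resB₀ R) (C.span_resB₁ R),
    LinearEquiv.refl _ _, LinearEquiv.refl _ _, LinearEquiv.refl _ _, fun _ => rfl, fun _ => rfl⟩

variable {C} {R}

theorem iso_refl (E : Bundle C R) : E.Iso E := by
  exact ⟨LinearEquiv.refl _ _, LinearEquiv.refl _ _, LinearEquiv.refl _ _, fun _ => rfl,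
    fun _ => rfl⟩

theorem iso_symm {E E' : Bundle C R} (h : E.Iso E') : E'.Iso E := by
  obtain ⟨e₀, e₁, e, h₀, h₁⟩ := h
  refine ⟨e₀.symm, e₁.symm, e.symm, fun m => ?_, fun m => ?_⟩
  · rw [LinearEquiv.symm_apply_eq, h₀, e₀.apply_symm_apply]
  · rw [LinearEquiv.symm_apply_eq, h₁, e₁.apply_symm_apply]

theorem iso_trans {E E' E'' : Bundle C R} (h : E.Iso E') (h' : E'.Iso E'') : E.Iso E'' := by
  obtain ⟨e₀, e₁, e, h₀, h₁⟩ := h
  obtain ⟨e₀', e₁', e', h₀', h₁'⟩ := h'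
  refine ⟨e₀.trans e₀', e₁.trans e₁', e.trans e', fun m => ?_, fun m => ?_⟩
  · rw [LinearEquiv.trans_apply, h₀, h₀']; rfl
  · rw [LinearEquiv.trans_apply, h₁, h₁']; rfl

/-- Pullbacks exist: extend scalars on each chart. -/
theorem exists_pullback (φ : R →ₐ[k] R') (E : Bundle C R) :
    ∃ E' : Bundle C R', IsPullback φ E E' := by
  letI : Algebra (C.B₀ R) (C.B₀ R') := (C.mapB₀ φ).toAlgebra
  letI : Algebra (C.B₁ R) (C.B₁ R') := (C.mapB₁ φ).toAlgebra
  letI : Algebra (C.B R) (C.B R') := (C.mapB φ).toAlgebra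
  let N₀ := C.B₀ R' ⊗[C.B₀ R] E.M₀
  let N₁ := C.B₁ R' ⊗[C.B₁ R] E.M₁
  let N := C.B R' ⊗[C.B R] E.M
  let f₀ : E.M₀ →ₛₗ[C.mapB₀ φ] N₀ :=
    { toFun := fun a => 1 ⊗ₜ a
      map_add' := fun a b => TensorProduct.tmul_add 1 a b
      map_smul' := fun r a => by rw [TensorProduct.tmul_smul]; exact (algebraMap_smul _ r _).symm }
  let f₁ : E.M₁ →ₛₗ[C.mapB₁ φ] N₁ :=
    { toFun := fun a => 1 ⊗ₜ a
      map_add' := fun a b => TensorProduct.tmul_add 1 a b
      map_smul' := fun r a => by rw [TensorProduct.tmul_smul]; exact (algebraMap_smul _ r _).symm }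
  let f : E.M →ₛₗ[C.mapB φ] N :=
    { toFun := fun a => 1 ⊗ₜ a
      map_add' := fun a b => TensorProduct.tmul_add 1 a b
      map_smul' := fun r a => by rw [TensorProduct.tmul_smul]; exact (algebraMap_smul _ r _).symm }
  have hf₀ : Submodule.span (C.B₀ R') (Set.range f₀) = ⊤ := by
    rw [eq_top_iff]
    rintro z -
    induction z using TensorProduct.induction_on with
    | zero => exact zero_mem _
    | tmul c a =>
      rw [show c ⊗ₜ[C.B₀ R] a = c • f₀ a by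
        show _ = c • (1 ⊗ₜ[C.B₀ R] a); rw [TensorProduct.smul_tmul', smul_eq_mul, mul_one]]
      exact Submodule.smul_mem _ _ (Submodule.subset_span ⟨a, rfl⟩)
    | add u v hu hv => exact add_mem hu hv
  have hf₁ : Submodule.span (C.B₁ R') (Set.range f₁) = ⊤ := by
    rw [eq_top_iff]
    rintro z -
    induction z using TensorProduct.induction_on with
    | zero => exact zero_mem _
    | tmul c a =>
      rw [show c ⊗ₜ[C.B₁ R] a = c • f₁ a by
        show _ = c • (1 ⊗ₜ[C.B₁ R] a); rw [TensorProduct.smul_tmul', smul_eq_mul, mul_one]]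
      exact Submodule.smul_mem _ _ (Submodule.subset_span ⟨a, rfl⟩)
    | add u v hu hv => exact add_mem hu hv
  have hf : Submodule.span (C.B R') (Set.range f) = ⊤ := by
    rw [eq_top_iff]
    rintro z -
    induction z using TensorProduct.induction_on with
    | zero => exact zero_mem _
    | tmul c a =>
      rw [show c ⊗ₜ[C.B R] a = c • f a by
        show _ = c • (1 ⊗ₜ[C.B R] a); rw [TensorProduct.smul_tmul', smul_eq_mul, mul_one]]
      exact Submodule.smul_mem _ _ (Submodule.subset_span ⟨a, rfl⟩)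
    | add u v hu hv => exact add_mem hu hv
  letI : Module (C.B₀ R') N := Module.compHom N (C.resB₀ R')
  letI : Module (C.B₁ R') N := Module.compHom N (C.resB₁ R')
  obtain ⟨j₀, hj₀⟩ := exists_lift (μ := C.mapB₀ φ) f₀ hf₀ (N := N)
    { toFun := fun a => f (E.ι₀ a)
      map_add' := fun a b => by rw [map_add, map_add]
      map_smul' := fun r a => by
        rw [LinearMap.map_smulₛₗ, LinearMap.map_smulₛₗ, C.mapB_resB₀]; rfl }
  obtain ⟨j₁, hj₁⟩ := exists_lift (μ := C.mapB₁ φ) f₁ hf₁ (N := N)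
    { toFun := fun a => f (E.ι₁ a)
      map_add' := fun a b => by rw [map_add, map_add]
      map_smul' := fun r a => by
        rw [LinearMap.map_smulₛₗ, LinearMap.map_smulₛₗ, C.mapB_resB₁]; rfl }
  let ι₀ : N₀ →ₛₗ[C.resB₀ R'] N :=
    { toFun := j₀, map_add' := map_add j₀, map_smul' := fun r a => map_smul j₀ r a }
  let ι₁ : N₁ →ₛₗ[C.resB₁ R'] N :=
    { toFun := j₁, map_add' := map_add j₁, map_smul' := fun r a => map_smul j₁ r a }
  have h₀ : Submodule.span (C.B R') (Set.range ι₀) = ⊤ := by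
    rw [eq_top_iff, ← span_range_comp _ E.span_ι₀ f hf]
    refine Submodule.span_mono ?_
    rintro _ ⟨a, rfl⟩
    exact ⟨f₀ a, hj₀ a⟩
  have h₁ : Submodule.span (C.B R') (Set.range ι₁) = ⊤ := by
    rw [eq_top_iff, ← span_range_comp _ E.span_ι₁ f hf]
    refine Submodule.span_mono ?_
    rintro _ ⟨a, rfl⟩
    exact ⟨f₁ a, hj₁ a⟩
  exact ⟨ofSpan N₀ N₁ N ι₀ ι₁ h₀ h₁, f₀, f₁, f, hf₀, hf₁, fun m => (hj₀ m).symm,
    fun m => (hj₁ m).symm⟩

/-- Pullbacks of isomorphic bundles are isomorphic. -/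
theorem isPullback_unique {φ : R →ₐ[k] R'} {E F : Bundle C R} {E' F' : Bundle C R'}
    (h : E.Iso F) (hE : IsPullback φ E E') (hF : IsPullback φ F F') : E'.Iso F' := by
  obtain ⟨e₀, e₁, e, he₀, he₁⟩ := h
  obtain ⟨f₀, f₁, f, hs₀, hs₁, hf₀, hf₁⟩ := hE
  obtain ⟨g₀, g₁, g, ht₀, ht₁, hg₀, hg₁⟩ := hF
  have hspan : ∀ {B B' : Type u} [CommRing B] [CommRing B'] {σ : B →+* B'} {M N M' : Type u}
      [AddCommGroup M] [AddCommGroup N] [AddCommGroup M'] [Module B M] [Module B N] [Module B' M']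
      (c : M ≃ₗ[B] N) (v : N →ₛₗ[σ] M'), Submodule.span B' (Set.range v) = ⊤ →
      Submodule.span B' (Set.range (v.comp c.toLinearMap)) = ⊤ := by
    intro B B' _ _ σ M N M' _ _ _ _ _ _ c v hv
    rw [← hv]
    congr 1
    ext z
    exact ⟨fun ⟨a, ha⟩ => ⟨c a, ha⟩, fun ⟨b, hb⟩ => ⟨c.symm b, by simp [← hb]⟩⟩
  have hfspan := span_of_compat f₀ f hs₀ hf₀
  obtain ⟨c₀, hc₀⟩ := exists_equiv f₀ hs₀ (g₀.comp e₀.toLinearMap) (hspan e₀ g₀ ht₀)
  obtain ⟨c₁, hc₁⟩ := exists_equiv f₁ hs₁ (g₁.comp e₁.toLinearMap) (hspan e₁ g₁ ht₁)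
  obtain ⟨c, hc⟩ := exists_equiv f hfspan (g.comp e.toLinearMap)
    (hspan e g (span_of_compat g₀ g ht₀ hg₀))
  refine ⟨c₀, c₁, c, fun m => ?_, fun m => ?_⟩
  · have hm : m ∈ Submodule.span (C.B₀ R') (Set.range f₀) := hs₀ ▸ Submodule.mem_top
    induction hm using Submodule.span_induction with
    | mem z hz =>
      obtain ⟨a, rfl⟩ := hz
      rw [← hf₀, hc, hc₀]
      show g (e (E.ι₀ a)) = F'.ι₀ (g₀ (e₀ a))
      rw [he₀, hg₀]
    | zero => simp only [map_zero]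
    | add u v _ _ hu hv => simp only [map_add, hu, hv]
    | smul r u _ hu => simp only [LinearMap.map_smulₛₗ, map_smul, hu]
  · have hm : m ∈ Submodule.span (C.B₁ R') (Set.range f₁) := hs₁ ▸ Submodule.mem_top
    induction hm using Submodule.span_induction with
    | mem z hz =>
      obtain ⟨a, rfl⟩ := hz
      rw [← hf₁, hc, hc₁]
      show g (e (E.ι₁ a)) = F'.ι₁ (g₁ (e₁ a))
      rw [he₁, hg₁]
    | zero => simp only [map_zero]
    | add u v _ _ hu hv => simp only [map_add, hu, hv]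
    | smul r u _ hu => simp only [LinearMap.map_smulₛₗ, map_smul, hu]

/-- Being a pullback respects isomorphisms. -/
theorem isPullback_of_iso {φ : R →ₐ[k] R'} {E F : Bundle C R} {E' F' : Bundle C R'}
    (h : E.Iso F) (h' : E'.Iso F') (hE : IsPullback φ E E') : IsPullback φ F F' := by
  obtain ⟨e₀, e₁, e, he₀, he₁⟩ := iso_symm h
  obtain ⟨d₀, d₁, d, hd₀, hd₁⟩ := h'
  obtain ⟨f₀, f₁, f, hs₀, hs₁, hf₀, hf₁⟩ := hE
  refine ⟨d₀.toLinearMap.comp (f₀.comp e₀.toLinearMap), d₁.toLinearMap.comp (f₁.comp e₁.toLinearMap),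
    d.toLinearMap.comp (f.comp e.toLinearMap), ?_, ?_, fun m => ?_, fun m => ?_⟩
  · rw [eq_top_iff, ← span_range_comp _ hs₀ d₀.toLinearMap (by
      rw [LinearEquiv.coe_coe, d₀.surjective.range_eq, Submodule.span_univ])]
    refine Submodule.span_mono ?_
    rintro _ ⟨a, rfl⟩
    exact ⟨e₀.symm a, by simp⟩
  · rw [eq_top_iff, ← span_range_comp _ hs₁ d₁.toLinearMap (by
      rw [LinearEquiv.coe_coe, d₁.surjective.range_eq, Submodule.span_univ])]
    refine Submodule.span_mono ?_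
    rintro _ ⟨a, rfl⟩
    exact ⟨e₁.symm a, by simp⟩
  · show d (f (e (F.ι₀ m))) = F'.ι₀ (d₀ (f₀ (e₀ m)))
    rw [he₀, hf₀, hd₀]
  · show d (f (e (F.ι₁ m))) = F'.ι₁ (d₁ (f₁ (e₁ m)))
    rw [he₁, hf₁, hd₁]

theorem isPullback_id (E : Bundle C R) : IsPullback (AlgHom.id k R) E E := by
  refine ⟨{ toFun := id, map_add' := fun _ _ => rfl,
             map_smul' := fun r a => by rw [C.mapB₀_id]; rfl },
    { toFun := id, map_add' := fun _ _ => rfl, map_smul' := fun r a => by rw [C.mapB₁_id]; rfl },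
    { toFun := id, map_add' := fun _ _ => rfl, map_smul' := fun r a => by rw [C.mapB_id]; rfl },
    ?_, ?_, fun _ => rfl, fun _ => rfl⟩
  · show Submodule.span _ (Set.range id) = ⊤
    rw [Set.range_id, Submodule.span_univ]
  · show Submodule.span _ (Set.range id) = ⊤
    rw [Set.range_id, Submodule.span_univ]

/-- Pullbacks compose. -/
theorem isPullback_comp {φ : R →ₐ[k] R'} {ψ : R' →ₐ[k] R''} {E : Bundle C R} {E' : Bundle C R'}
    {E'' : Bundle C R''} (h : IsPullback φ E E') (h' : IsPullback ψ E' E'') :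
    IsPullback (ψ.comp φ) E E'' := by
  obtain ⟨f₀, f₁, f, hs₀, hs₁, hf₀, hf₁⟩ := h
  obtain ⟨g₀, g₁, g, ht₀, ht₁, hg₀, hg₁⟩ := h'
  refine ⟨{ toFun := fun a => g₀ (f₀ a), map_add' := fun a b => by simp,
             map_smul' := fun r a => by
               rw [LinearMap.map_smulₛₗ, LinearMap.map_smulₛₗ, C.mapB₀_comp] },
    { toFun := fun a => g₁ (f₁ a), map_add' := fun a b => by simp,
      map_smul' := fun r a => by rw [LinearMap.map_smulₛₗ, LinearMap.map_smulₛₗ, C.mapB₁_comp] },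
    { toFun := fun a => g (f a), map_add' := fun a b => by simp,
      map_smul' := fun r a => by rw [LinearMap.map_smulₛₗ, LinearMap.map_smulₛₗ, C.mapB_comp] },
    span_range_comp _ hs₀ g₀ ht₀, span_range_comp _ hs₁ g₁ ht₁, fun m => ?_, fun m => ?_⟩
  · show g (f (E.ι₀ m)) = E''.ι₀ (g₀ (f₀ m))
    rw [hf₀, hg₀]
  · show g (f (E.ι₁ m)) = E''.ι₁ (g₁ (f₁ m))
    rw [hf₁, hg₁]

/-- Pullbacks of rigidified bundles are rigidified. -/
theorem IsPullback.isRigidified {φ : R →ₐ[k] R'} {E : Bundle C R} {E' : Bundle C R'}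
    (h : IsPullback φ E E') (hE : E.IsRigidified) : E'.IsRigidified := by
  obtain ⟨f₀, f₁, f, hs₀, hs₁, hf₀, hf₁⟩ := h
  obtain ⟨r, hr⟩ := hE
  letI : Module (C.B₀ R') R' := Module.compHom R' (C.baseB R')
  obtain ⟨g, hg⟩ := exists_lift (μ := C.mapB₀ φ) f₀ hs₀ (N := R')
    { toFun := fun a => φ (r a)
      map_add' := fun a b => by rw [map_add, map_add]
      map_smul' := fun b a => by
        rw [LinearMap.map_smulₛₗ, smul_eq_mul, map_mul, ← C.baseB_mapB₀]; rfl }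
  let g' : E'.M₀ →ₛₗ[C.baseB R'] R' :=
    { toFun := g, map_add' := map_add g, map_smul' := fun b a => map_smul g b a }
  obtain ⟨m, hm⟩ := hr 1
  exact ⟨g', surjective_of_one_mem C.baseB_surjective g' (m := f₀ m) (by
    show g (f₀ m) = 1
    rw [hg]
    show φ (r m) = 1
    rw [hm, map_one])⟩

/-- Tensor products exist. -/
theorem exists_tensor (E E' : Bundle C R) : ∃ F : Bundle C R, IsTensor E E' F := by
  letI : Module (C.B₀ R) (E.M ⊗[C.B R] E'.M) := Module.compHom _ (C.resB₀ R)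
  letI : Module (C.B₁ R) (E.M ⊗[C.B R] E'.M) := Module.compHom _ (C.resB₁ R)
  obtain ⟨j₀, hj₀⟩ := exists_pairLift (TensorProduct.mk (C.B₀ R) E.M₀ E'.M₀) (by
      rw [span_pair, LinearMap.range_eq_top]
      intro z
      refine ⟨z, ?_⟩
      rw [TensorProduct.lift_mk]
      rfl)
    (LinearMap.mk₂ (C.B₀ R) (fun a b => E.ι₀ a ⊗ₜ[C.B R] E'.ι₀ b)
      (fun a a' b => by rw [map_add, TensorProduct.add_tmul])
      (fun r a b => by rw [LinearMap.map_smulₛₗ, ← TensorProduct.smul_tmul']; rfl)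
      (fun a b b' => by rw [map_add, TensorProduct.tmul_add])
      (fun r a b => by rw [LinearMap.map_smulₛₗ, TensorProduct.tmul_smul]; rfl))
  obtain ⟨j₁, hj₁⟩ := exists_pairLift (TensorProduct.mk (C.B₁ R) E.M₁ E'.M₁) (by
      rw [span_pair, LinearMap.range_eq_top]
      intro z
      refine ⟨z, ?_⟩
      rw [TensorProduct.lift_mk]
      rfl)
    (LinearMap.mk₂ (C.B₁ R) (fun a b => E.ι₁ a ⊗ₜ[C.B R] E'.ι₁ b)
      (fun a a' b => by rw [map_add, TensorProduct.add_tmul])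
      (fun r a b => by rw [LinearMap.map_smulₛₗ, ← TensorProduct.smul_tmul']; rfl)
      (fun a b b' => by rw [map_add, TensorProduct.tmul_add])
      (fun r a b => by rw [LinearMap.map_smulₛₗ, TensorProduct.tmul_smul]; rfl))
  let ι₀ : E.M₀ ⊗[C.B₀ R] E'.M₀ →ₛₗ[C.resB₀ R] E.M ⊗[C.B R] E'.M :=
    { toFun := j₀, map_add' := map_add j₀, map_smul' := fun r a => map_smul j₀ r a }
  let ι₁ : E.M₁ ⊗[C.B₁ R] E'.M₁ →ₛₗ[C.resB₁ R] E.M ⊗[C.B R] E'.M :=
    { toFun := j₁, map_add' := map_add j₁, map_smul' := fun r a => map_smul j₁ r a }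
  have hgen : ∀ (s : Set (E.M ⊗[C.B R] E'.M)) (S : Set E.M) (S' : Set E'.M),
      Submodule.span (C.B R) S = ⊤ → Submodule.span (C.B R) S' = ⊤ →
      (∀ a ∈ S, ∀ b ∈ S', a ⊗ₜ b ∈ s) → Submodule.span (C.B R) s = ⊤ := by
    intro s S S' hS hS' hmem
    rw [eq_top_iff, ← TensorProduct.map₂_mk_top_top_eq_top, ← hS, ← hS', Submodule.map₂_span_span,
      Submodule.span_le]
    rintro _ ⟨a, ha, b, hb, rfl⟩
    exact Submodule.subset_span (hmem a ha b hb)
  have h₀ : Submodule.span (C.B R) (Set.range ι₀) = ⊤ :=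
    hgen _ _ _ E.span_ι₀ E'.span_ι₀ (by
      rintro _ ⟨a, rfl⟩ _ ⟨b, rfl⟩
      exact ⟨a ⊗ₜ b, hj₀ a b⟩)
  have h₁ : Submodule.span (C.B R) (Set.range ι₁) = ⊤ :=
    hgen _ _ _ E.span_ι₁ E'.span_ι₁ (by
      rintro _ ⟨a, rfl⟩ _ ⟨b, rfl⟩
      exact ⟨a ⊗ₜ b, hj₁ a b⟩)
  exact ⟨ofSpan _ _ _ ι₀ ι₁ h₀ h₁, TensorProduct.mk _ _ _, TensorProduct.mk _ _ _,
    TensorProduct.mk _ _ _,
    (span_pair (TensorProduct.mk (C.B₀ R) E.M₀ E'.M₀)).trans (LinearMap.range_eq_top.2 fun z =>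
      ⟨z, by rw [TensorProduct.lift_mk]; rfl⟩),
    (span_pair (TensorProduct.mk (C.B₁ R) E.M₁ E'.M₁)).trans (LinearMap.range_eq_top.2 fun z =>
      ⟨z, by rw [TensorProduct.lift_mk]; rfl⟩),
    fun a b => (hj₀ a b).symm, fun a b => (hj₁ a b).symm⟩

/-- Tensor products of isomorphic bundles are isomorphic. -/
theorem isTensor_unique {E E' F G G' H : Bundle C R} (h : E.Iso G) (h' : E'.Iso G')
    (hF : IsTensor E E' F) (hH : IsTensor G G' H) : F.Iso H := by
  obtain ⟨e₀, e₁, e, he₀, he₁⟩ := h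
  obtain ⟨d₀, d₁, d, hd₀, hd₁⟩ := h'
  obtain ⟨μ₀, μ₁, μ, hs₀, hs₁, hμ₀, hμ₁⟩ := hF
  obtain ⟨ν₀, ν₁, ν, ht₀, ht₁, hν₀, hν₁⟩ := hH
  have key : ∀ {B : Type u} [CommRing B] {M M' P N N' Q : Type u} [AddCommGroup M] [AddCommGroup M']
      [AddCommGroup P] [AddCommGroup N] [AddCommGroup N'] [AddCommGroup Q] [Module B M] [Module B M']
      [Module B P] [Module B N] [Module B N'] [Module B Q] [Module.Invertible B M]
      [Module.Invertible B M'] [Module.Invertible B P] [Module.Invertible B Q]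
      (μ : M →ₗ[B] M' →ₗ[B] P) (_ : Submodule.span B {z | ∃ a b, μ a b = z} = ⊤)
      (ν : N →ₗ[B] N' →ₗ[B] Q) (_ : Submodule.span B {z | ∃ a b, ν a b = z} = ⊤)
      (c : M ≃ₗ[B] N) (c' : M' ≃ₗ[B] N'), ∃ g : P ≃ₗ[B] Q, ∀ a b, g (μ a b) = ν (c a) (c' b) := by
    intro B _ M M' P N N' Q _ _ _ _ _ _ _ _ _ _ _ _ _ _ _ _ μ hμ ν hν c c'
    obtain ⟨g, hg⟩ := exists_pairLift μ hμ (ν.compl₁₂ c.toLinearMap c'.toLinearMap)
    refine ⟨LinearEquiv.ofBijective g (Module.Invertible.bijective_of_surjective ?_), hg⟩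
    rw [← LinearMap.range_eq_top, eq_top_iff, ← hν, Submodule.span_le]
    rintro _ ⟨a, b, rfl⟩
    exact ⟨μ (c.symm a) (c'.symm b), by rw [hg]; simp⟩
  obtain ⟨g₀, hg₀⟩ := key μ₀ hs₀ ν₀ ht₀ e₀ d₀
  obtain ⟨g₁, hg₁⟩ := key μ₁ hs₁ ν₁ ht₁ e₁ d₁
  obtain ⟨g, hg⟩ := key μ (span_pair_of_compat μ₀ μ hs₀ hμ₀) ν (span_pair_of_compat ν₀ ν ht₀ hν₀) e d
  refine ⟨g₀, g₁, g, fun m => ?_, fun m => ?_⟩
  · have hm : m ∈ Submodule.span (C.B₀ R) {z | ∃ a b, μ₀ a b = z} := hs₀ ▸ Submodule.mem_top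
    induction hm using Submodule.span_induction with
    | mem z hz =>
      obtain ⟨a, b, rfl⟩ := hz
      rw [← hμ₀, hg, hg₀, he₀, hd₀, hν₀]
    | zero => simp only [map_zero]
    | add u v _ _ hu hv => simp only [map_add, hu, hv]
    | smul r u _ hu => simp only [LinearMap.map_smulₛₗ, map_smul, hu]
  · have hm : m ∈ Submodule.span (C.B₁ R) {z | ∃ a b, μ₁ a b = z} := hs₁ ▸ Submodule.mem_top
    induction hm using Submodule.span_induction with
    | mem z hz =>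
      obtain ⟨a, b, rfl⟩ := hz
      rw [← hμ₁, hg, hg₁, he₁, hd₁, hν₁]
    | zero => simp only [map_zero]
    | add u v _ _ hu hv => simp only [map_add, hu, hv]
    | smul r u _ hu => simp only [LinearMap.map_smulₛₗ, map_smul, hu]

theorem isTensor_comm {E E' F : Bundle C R} (h : IsTensor E E' F) : IsTensor E' E F := by
  obtain ⟨μ₀, μ₁, μ, hs₀, hs₁, hμ₀, hμ₁⟩ := h
  refine ⟨μ₀.flip, μ₁.flip, μ.flip, ?_, ?_, fun a b => hμ₀ b a, fun a b => hμ₁ b a⟩
  · rw [← hs₀]; congr 1; ext z; exact ⟨fun ⟨a, b, h⟩ => ⟨b, a, h⟩, fun ⟨a, b, h⟩ => ⟨b, a, h⟩⟩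
  · rw [← hs₁]; congr 1; ext z; exact ⟨fun ⟨a, b, h⟩ => ⟨b, a, h⟩, fun ⟨a, b, h⟩ => ⟨b, a, h⟩⟩

/-- Tensor products are associative. -/
theorem isTensor_assoc {E₁ E₂ E₃ F F' G G' : Bundle C R} (h : IsTensor E₁ E₂ F)
    (hG : IsTensor F E₃ G) (h' : IsTensor E₂ E₃ F') (hG' : IsTensor E₁ F' G') : G.Iso G' := by
  obtain ⟨μ₀, μ₁, μ, hs₀, hs₁, hμ₀, hμ₁⟩ := h
  obtain ⟨ν₀, ν₁, ν, ht₀, ht₁, hν₀, hν₁⟩ := hG
  obtain ⟨μ₀', μ₁', μ', hs₀', hs₁', hμ₀', hμ₁'⟩ := h'
  obtain ⟨ν₀', ν₁', ν', ht₀', ht₁', hν₀', hν₁'⟩ := hG'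
  have key : ∀ {B : Type u} [CommRing B] {M₁ M₂ M₃ P P' Q Q' : Type u} [AddCommGroup M₁]
      [AddCommGroup M₂] [AddCommGroup M₃] [AddCommGroup P] [AddCommGroup P'] [AddCommGroup Q]
      [AddCommGroup Q'] [Module B M₁] [Module B M₂] [Module B M₃] [Module B P] [Module B P']
      [Module B Q] [Module B Q'] [Module.Invertible B M₁] [Module.Invertible B M₂]
      [Module.Invertible B M₃] [Module.Invertible B P] [Module.Invertible B P']
      [Module.Invertible B Q] [Module.Invertible B Q']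
      (a : M₁ →ₗ[B] M₂ →ₗ[B] P) (_ : Submodule.span B {z | ∃ x y, a x y = z} = ⊤)
      (b : P →ₗ[B] M₃ →ₗ[B] Q) (_ : Submodule.span B {z | ∃ x y, b x y = z} = ⊤)
      (a' : M₂ →ₗ[B] M₃ →ₗ[B] P') (_ : Submodule.span B {z | ∃ x y, a' x y = z} = ⊤)
      (b' : M₁ →ₗ[B] P' →ₗ[B] Q') (_ : Submodule.span B {z | ∃ x y, b' x y = z} = ⊤),
      ∃ g : Q ≃ₗ[B] Q', ∀ x y w, g (b (a x y) w) = b' x (a' y w) := by
    intro B _ M₁ M₂ M₃ P P' Q Q' _ _ _ _ _ _ _ _ _ _ _ _ _ _ _ _ _ _ _ _ _ a ha b hb a' ha' b' hb'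
    obtain ⟨ea, hea⟩ := exists_pairEquiv a ha
    obtain ⟨eb, heb⟩ := exists_pairEquiv b hb
    obtain ⟨ea', hea'⟩ := exists_pairEquiv a' ha'
    obtain ⟨eb', heb'⟩ := exists_pairEquiv b' hb'
    refine ⟨eb.symm ≪≫ₗ TensorProduct.congr ea.symm (LinearEquiv.refl B M₃) ≪≫ₗ
      TensorProduct.assoc B M₁ M₂ M₃ ≪≫ₗ TensorProduct.congr (LinearEquiv.refl B M₁) ea' ≪≫ₗ eb',
      fun x y w => ?_⟩
    rw [← hea, ← heb, ← hea', ← heb']
    simp
  obtain ⟨g₀, hg₀⟩ := key μ₀ hs₀ ν₀ ht₀ μ₀' hs₀' ν₀' ht₀'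
  obtain ⟨g₁, hg₁⟩ := key μ₁ hs₁ ν₁ ht₁ μ₁' hs₁' ν₁' ht₁'
  obtain ⟨g, hg⟩ := key μ (span_pair_of_compat μ₀ μ hs₀ hμ₀) ν (span_pair_of_compat ν₀ ν ht₀ hν₀)
    μ' (span_pair_of_compat μ₀' μ' hs₀' hμ₀') ν' (span_pair_of_compat ν₀' ν' ht₀' hν₀')
  refine ⟨g₀, g₁, g, fun m => ?_, fun m => ?_⟩
  · have hm : m ∈ Submodule.span (C.B₀ R) {z | ∃ a b, ν₀ a b = z} := ht₀ ▸ Submodule.mem_top
    induction hm using Submodule.span_induction with
    | mem z hz =>
      obtain ⟨p, w, rfl⟩ := hz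
      have hp : p ∈ Submodule.span (C.B₀ R) {z | ∃ a b, μ₀ a b = z} := hs₀ ▸ Submodule.mem_top
      induction hp using Submodule.span_induction with
      | mem z hz =>
        obtain ⟨x, y, rfl⟩ := hz
        rw [← hν₀, ← hμ₀, hg, hg₀, hμ₀', hν₀']
      | zero => simp only [map_zero, LinearMap.zero_apply]
      | add u v _ _ hu hv => simp only [map_add, LinearMap.add_apply, hu, hv]
      | smul r u _ hu => simp only [LinearMap.map_smulₛₗ, LinearMap.smul_apply, map_smul, hu]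
    | zero => simp only [map_zero]
    | add u v _ _ hu hv => simp only [map_add, hu, hv]
    | smul r u _ hu => simp only [LinearMap.map_smulₛₗ, map_smul, hu]
  · have hm : m ∈ Submodule.span (C.B₁ R) {z | ∃ a b, ν₁ a b = z} := ht₁ ▸ Submodule.mem_top
    induction hm using Submodule.span_induction with
    | mem z hz =>
      obtain ⟨p, w, rfl⟩ := hz
      have hp : p ∈ Submodule.span (C.B₁ R) {z | ∃ a b, μ₁ a b = z} := hs₁ ▸ Submodule.mem_top
      induction hp using Submodule.span_induction with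
      | mem z hz =>
        obtain ⟨x, y, rfl⟩ := hz
        rw [← hν₁, ← hμ₁, hg, hg₁, hμ₁', hν₁']
      | zero => simp only [map_zero, LinearMap.zero_apply]
      | add u v _ _ hu hv => simp only [map_add, LinearMap.add_apply, hu, hv]
      | smul r u _ hu => simp only [LinearMap.map_smulₛₗ, LinearMap.smul_apply, map_smul, hu]
    | zero => simp only [map_zero]
    | add u v _ _ hu hv => simp only [map_add, hu, hv]
    | smul r u _ hu => simp only [LinearMap.map_smulₛₗ, map_smul, hu]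

/-- Pullback respects tensor products. -/
theorem isTensor_pullback {φ : R →ₐ[k] R'} {E E' F : Bundle C R} {G G' H : Bundle C R'}
    (h : IsPullback φ E G) (h' : IsPullback φ E' G') (hF : IsTensor E E' F)
    (hH : IsTensor G G' H) : IsPullback φ F H := by
  obtain ⟨f₀, f₁, f, hs₀, hs₁, hf₀, hf₁⟩ := h
  obtain ⟨f₀', f₁', f', hs₀', hs₁', hf₀', hf₁'⟩ := h'
  obtain ⟨μ₀, μ₁, μ, ht₀, ht₁, hμ₀, hμ₁⟩ := hF
  obtain ⟨ν₀, ν₁, ν, hu₀, hu₁, hν₀, hν₁⟩ := hH
  have key : ∀ {B B' : Type u} [CommRing B] [CommRing B'] {σ : B →+* B'} {M M' P N N' Q : Type u}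
      [AddCommGroup M] [AddCommGroup M'] [AddCommGroup P] [AddCommGroup N] [AddCommGroup N']
      [AddCommGroup Q] [Module B M] [Module B M'] [Module B P] [Module B' N] [Module B' N']
      [Module B' Q] [Module.Invertible B M] [Module.Invertible B M'] [Module.Invertible B P]
      (a : M →ₗ[B] M' →ₗ[B] P) (_ : Submodule.span B {z | ∃ x y, a x y = z} = ⊤)
      (b : N →ₗ[B'] N' →ₗ[B'] Q) (_ : Submodule.span B' {z | ∃ x y, b x y = z} = ⊤)
      (c : M →ₛₗ[σ] N) (_ : Submodule.span B' (Set.range c) = ⊤)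
      (c' : M' →ₛₗ[σ] N') (_ : Submodule.span B' (Set.range c') = ⊤),
      ∃ g : P →ₛₗ[σ] Q, Submodule.span B' (Set.range g) = ⊤ ∧
        ∀ x y, g (a x y) = b (c x) (c' y) := by
    intro B B' _ _ σ M M' P N N' Q _ _ _ _ _ _ _ _ _ _ _ _ _ _ _ a ha b hb c hc c' hc'
    obtain ⟨g, hg⟩ := exists_pairLiftₛₗ (σ := σ) a ha (fun x y => b (c x) (c' y))
      (fun x x' y => by rw [map_add, map_add, LinearMap.add_apply])
      (fun r x y => by rw [LinearMap.map_smulₛₗ, map_smul, LinearMap.smul_apply])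
      (fun x y y' => by rw [map_add, map_add])
      (fun r x y => by rw [LinearMap.map_smulₛₗ, map_smul])
    refine ⟨g, ?_, hg⟩
    rw [eq_top_iff, ← hb, Submodule.span_le]
    rintro _ ⟨x, y, rfl⟩
    have hx : x ∈ Submodule.span B' (Set.range c) := hc ▸ Submodule.mem_top
    have hy : y ∈ Submodule.span B' (Set.range c') := hc' ▸ Submodule.mem_top
    have h2 := Submodule.apply_mem_map₂ b hx hy
    rw [Submodule.map₂_span_span] at h2
    refine Submodule.span_mono ?_ h2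
    rintro _ ⟨_, ⟨x', rfl⟩, _, ⟨y', rfl⟩, rfl⟩
    exact ⟨a x' y', hg x' y'⟩
  obtain ⟨g₀, hgs₀, hg₀⟩ := key μ₀ ht₀ ν₀ hu₀ f₀ hs₀ f₀' hs₀'
  obtain ⟨g₁, hgs₁, hg₁⟩ := key μ₁ ht₁ ν₁ hu₁ f₁ hs₁ f₁' hs₁'
  obtain ⟨g, -, hg⟩ := key μ (span_pair_of_compat μ₀ μ ht₀ hμ₀) ν (span_pair_of_compat ν₀ ν hu₀ hν₀)
    f (span_of_compat f₀ f hs₀ hf₀) f' (span_of_compat f₀' f' hs₀' hf₀')
  refine ⟨g₀, g₁, g, hgs₀, hgs₁, fun m => ?_, fun m => ?_⟩
  · have hm : m ∈ Submodule.span (C.B₀ R) {z | ∃ a b, μ₀ a b = z} := ht₀ ▸ Submodule.mem_top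
    induction hm using Submodule.span_induction with
    | mem z hz =>
      obtain ⟨a, b, rfl⟩ := hz
      rw [← hμ₀, hg, hg₀, hf₀, hf₀', hν₀]
    | zero => simp only [map_zero]
    | add u v _ _ hu hv => simp only [map_add, hu, hv]
    | smul r u _ hu => simp only [LinearMap.map_smulₛₗ, C.mapB_resB₀, hu]
  · have hm : m ∈ Submodule.span (C.B₁ R) {z | ∃ a b, μ₁ a b = z} := ht₁ ▸ Submodule.mem_top
    induction hm using Submodule.span_induction with
    | mem z hz =>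
      obtain ⟨a, b, rfl⟩ := hz
      rw [← hμ₁, hg, hg₁, hf₁, hf₁', hν₁]
    | zero => simp only [map_zero]
    | add u v _ _ hu hv => simp only [map_add, hu, hv]
    | smul r u _ hu => simp only [LinearMap.map_smulₛₗ, C.mapB_resB₁, hu]

/-- Tensor products of rigidified bundles are rigidified. -/
theorem isRigidified_tensor {E E' F : Bundle C R} (h : IsTensor E E' F) (hE : E.IsRigidified)
    (hE' : E'.IsRigidified) : F.IsRigidified := by
  obtain ⟨μ₀, μ₁, μ, hs₀, hs₁, hμ₀, hμ₁⟩ := h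
  obtain ⟨r, hr⟩ := hE
  obtain ⟨r', hr'⟩ := hE'
  obtain ⟨g, hg⟩ := exists_pairLiftₛₗ (σ := C.baseB R) μ₀ hs₀ (fun a b => r a * r' b)
    (fun a a' b => by rw [map_add, add_mul])
    (fun c a b => by rw [LinearMap.map_smulₛₗ, smul_eq_mul, smul_eq_mul, mul_assoc])
    (fun a b b' => by rw [map_add, mul_add])
    (fun c a b => by rw [LinearMap.map_smulₛₗ, smul_eq_mul, smul_eq_mul, mul_left_comm])
  obtain ⟨a, ha⟩ := hr 1
  obtain ⟨b, hb⟩ := hr' 1
  exact ⟨g, surjective_of_one_mem C.baseB_surjective g (m := μ₀ a b) (by rw [hg, ha, hb, one_mul])⟩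

/-- Every bundle has an inverse. -/
theorem exists_inverse (E : Bundle C R) : ∃ E' F : Bundle C R, IsTensor E E' F ∧
    (∃ (e₀ : F.M₀ ≃ₗ[C.B₀ R] C.B₀ R) (e₁ : F.M₁ ≃ₗ[C.B₁ R] C.B₁ R) (e : F.M ≃ₗ[C.B R] C.B R),
      (∀ m, e (F.ι₀ m) = C.resB₀ R (e₀ m)) ∧ ∀ m, e (F.ι₁ m) = C.resB₁ R (e₁ m)) ∧
    (E.IsRigidified → E'.IsRigidified) := by
  classical
  obtain ⟨U, e₀, e₁, e, he₀, he₁⟩ := exists_unit C R
  letI : Module (C.B₀ R) (C.B R) := Module.compHom _ (C.resB₀ R)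
  letI : Module (C.B₁ R) (C.B R) := Module.compHom _ (C.resB₁ R)
  have hext₀ : ∀ l : Module.Dual (C.B₀ R) E.M₀, ∃ g : Module.Dual (C.B R) E.M,
      ∀ a, g (E.ι₀ a) = C.resB₀ R (l a) := fun l =>
    exists_lift E.ι₀ E.span_ι₀
      { toFun := fun a => C.resB₀ R (l a)
        map_add' := fun a b => by rw [map_add, map_add]
        map_smul' := fun c a => by rw [map_smul, smul_eq_mul, map_mul, smul_eq_mul] }
  have hext₁ : ∀ l : Module.Dual (C.B₁ R) E.M₁, ∃ g : Module.Dual (C.B R) E.M,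
      ∀ a, g (E.ι₁ a) = C.resB₁ R (l a) := fun l =>
    exists_lift E.ι₁ E.span_ι₁
      { toFun := fun a => C.resB₁ R (l a)
        map_add' := fun a b => by rw [map_add, map_add]
        map_smul' := fun c a => by rw [map_smul, smul_eq_mul, map_mul, smul_eq_mul] }
  choose j₀ hj₀ using hext₀
  choose j₁ hj₁ using hext₁
  let ι₀ : Module.Dual (C.B₀ R) E.M₀ →ₛₗ[C.resB₀ R] Module.Dual (C.B R) E.M :=
    { toFun := j₀
      map_add' := fun l l' => LinearMap.ext_on_range E.span_ι₀ fun a => by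
        rw [LinearMap.add_apply, hj₀, hj₀, hj₀, LinearMap.add_apply, map_add]
      map_smul' := fun c l => LinearMap.ext_on_range E.span_ι₀ fun a => by
        rw [LinearMap.smul_apply, hj₀, hj₀, LinearMap.smul_apply, smul_eq_mul, smul_eq_mul,
          map_mul] }
  let ι₁ : Module.Dual (C.B₁ R) E.M₁ →ₛₗ[C.resB₁ R] Module.Dual (C.B R) E.M :=
    { toFun := j₁
      map_add' := fun l l' => LinearMap.ext_on_range E.span_ι₁ fun a => by
        rw [LinearMap.add_apply, hj₁, hj₁, hj₁, LinearMap.add_apply, map_add]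
      map_smul' := fun c l => LinearMap.ext_on_range E.span_ι₁ fun a => by
        rw [LinearMap.smul_apply, hj₁, hj₁, LinearMap.smul_apply, smul_eq_mul, smul_eq_mul,
          map_mul] }
  have h₀ : Submodule.span (C.B R) (Set.range ι₀) = ⊤ := by
    rw [eq_top_iff]
    rintro g -
    obtain ⟨n, m, l, hml⟩ := exists_dualBasis (B := C.B₀ R) (M := E.M₀)
    have hg : g = ∑ i, g (E.ι₀ (m i)) • ι₀ (l i) := LinearMap.ext_on_range E.span_ι₀ fun a => by
      rw [LinearMap.sum_apply]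
      conv_lhs => rw [← hml a, map_sum, map_sum]
      refine Finset.sum_congr rfl fun i _ => ?_
      rw [LinearMap.map_smulₛₗ, map_smul, LinearMap.smul_apply, smul_eq_mul, smul_eq_mul, mul_comm]
      exact congrArg _ (hj₀ (l i) a).symm
    rw [hg]
    exact sum_mem fun i _ => Submodule.smul_mem _ _ (Submodule.subset_span ⟨l i, rfl⟩)
  have h₁ : Submodule.span (C.B R) (Set.range ι₁) = ⊤ := by
    rw [eq_top_iff]
    rintro g -
    obtain ⟨n, m, l, hml⟩ := exists_dualBasis (B := C.B₁ R) (M := E.M₁)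
    have hg : g = ∑ i, g (E.ι₁ (m i)) • ι₁ (l i) := LinearMap.ext_on_range E.span_ι₁ fun a => by
      rw [LinearMap.sum_apply]
      conv_lhs => rw [← hml a, map_sum, map_sum]
      refine Finset.sum_congr rfl fun i _ => ?_
      rw [LinearMap.map_smulₛₗ, map_smul, LinearMap.smul_apply, smul_eq_mul, smul_eq_mul, mul_comm]
      exact congrArg _ (hj₁ (l i) a).symm
    rw [hg]
    exact sum_mem fun i _ => Submodule.smul_mem _ _ (Submodule.subset_span ⟨l i, rfl⟩)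
  let E' : Bundle C R := ofSpan _ _ _ ι₀ ι₁ h₀ h₁
  refine ⟨E', U,
    ⟨(Module.Dual.eval (C.B₀ R) E.M₀).compr₂ e₀.symm.toLinearMap,
      (Module.Dual.eval (C.B₁ R) E.M₁).compr₂ e₁.symm.toLinearMap,
      (Module.Dual.eval (C.B R) E.M).compr₂ e.symm.toLinearMap, ?_, ?_, fun a l => ?_, fun a l => ?_⟩,
    ⟨e₀, e₁, e, he₀, he₁⟩, fun hr => ?_⟩
  · rw [eq_top_iff, ← span_range_comp
      (fun p : E.M₀ × Module.Dual (C.B₀ R) E.M₀ => p.2 p.1) (by
        rw [← span_contract (B := C.B₀ R) (M := E.M₀)]; congr 1; ext z; simp)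
      e₀.symm.toLinearMap (by
        rw [LinearEquiv.coe_coe, e₀.symm.surjective.range_eq, Submodule.span_univ])]
    refine Submodule.span_mono ?_
    rintro _ ⟨⟨a, l⟩, rfl⟩
    exact ⟨a, l, rfl⟩
  · rw [eq_top_iff, ← span_range_comp
      (fun p : E.M₁ × Module.Dual (C.B₁ R) E.M₁ => p.2 p.1) (by
        rw [← span_contract (B := C.B₁ R) (M := E.M₁)]; congr 1; ext z; simp)
      e₁.symm.toLinearMap (by
        rw [LinearEquiv.coe_coe, e₁.symm.surjective.range_eq, Submodule.span_univ])]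
    refine Submodule.span_mono ?_
    rintro _ ⟨⟨a, l⟩, rfl⟩
    exact ⟨a, l, rfl⟩
  · refine (LinearEquiv.symm_apply_eq e).2 ?_
    exact (hj₀ l a).trans ((he₀ _).trans (congrArg _ (e₀.apply_symm_apply _))).symm
  · refine (LinearEquiv.symm_apply_eq e).2 ?_
    exact (hj₁ l a).trans ((he₁ _).trans (congrArg _ (e₁.apply_symm_apply _))).symm
  · obtain ⟨r, hr⟩ := hr
    obtain ⟨m, hm⟩ := hr 1
    let ev : Module.Dual (C.B₀ R) E.M₀ →ₛₗ[C.baseB R] R :=
      { toFun := fun l => C.baseB R (l m)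
        map_add' := fun l l' => by rw [LinearMap.add_apply, map_add]
        map_smul' := fun c l => by rw [LinearMap.smul_apply, smul_eq_mul, map_mul, smul_eq_mul] }
    have hrspan : Submodule.span R (Set.range r) = ⊤ := by
      rw [hr.range_eq, Submodule.span_univ]
    have hmem : ∀ c, c ∈ Submodule.span (C.B₀ R)
        {z | ∃ (a : E.M₀) (l : Module.Dual (C.B₀ R) E.M₀), l a = z} →
        C.baseB R c ∈ Submodule.span R (Set.range ev) := by
      intro c hc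
      induction hc using Submodule.span_induction with
      | mem z hz =>
        obtain ⟨a, l, rfl⟩ := hz
        obtain ⟨g, hg⟩ := exists_lift r hrspan
          { toFun := fun a => C.baseB R (l a)
            map_add' := fun a b => by rw [map_add, map_add]
            map_smul' := fun c a => by rw [map_smul, smul_eq_mul, map_mul, smul_eq_mul] }
        have hga : C.baseB R (l a) = r a • ev l := by
          have h2 : g 1 = ev l := by rw [← hm]; exact hg m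
          calc C.baseB R (l a) = g (r a) := (hg a).symm
            _ = g (r a • 1) := by rw [smul_eq_mul, mul_one]
            _ = r a • g 1 := map_smul g _ _
            _ = r a • ev l := by rw [h2]
        rw [hga]
        exact Submodule.smul_mem _ _ (Submodule.subset_span ⟨l, rfl⟩)
      | zero => rw [map_zero]; exact zero_mem _
      | add u v _ _ hu hv => rw [map_add]; exact add_mem hu hv
      | smul b u _ hu => rw [smul_eq_mul, map_mul]; exact Submodule.smul_mem _ _ hu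
    have h1 : (1 : R) ∈ Submodule.span R (Set.range ev) := map_one (C.baseB R) ▸ hmem 1 (by
      rw [span_contract]; trivial)
    refine ⟨ev, fun z => ?_⟩
    have hz : z ∈ Submodule.span R (Set.range ev) := by
      simpa using Submodule.smul_mem _ z h1
    induction hz using Submodule.span_induction with
    | mem w hw => exact hw
    | zero => exact ⟨0, map_zero _⟩
    | add u v _ _ hu hv =>
      obtain ⟨a, rfl⟩ := hu
      obtain ⟨b, rfl⟩ := hv
      exact ⟨a + b, map_add _ _ _⟩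
    | smul c u _ hu =>
      obtain ⟨a, rfl⟩ := hu
      obtain ⟨b, rfl⟩ := C.baseB_surjective c
      exact ⟨b • a, LinearMap.map_smulₛₗ ev b a⟩

/-- Twists by invertible modules of the base exist. -/
theorem exists_baseTwist (E : Bundle C R) (Q : Type u) [AddCommGroup Q] [Module R Q]
    [Module.Invertible R Q] : ∃ F : Bundle C R, IsBaseTwist E Q F := by
  letI := E.rModule₀
  obtain ⟨F, μ₀, μ₁, μ, g, h₁, h₂, h₃, h₄, h₅, h₆, h₇, h₈, h₉, h₁₀, -⟩ :=
    exists_twist_data E Q R 0 fun b a w => by simp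
  exact ⟨F, μ₀, μ₁, μ, h₁, h₂, h₃, h₄, h₅, h₆, h₇, h₈, h₉, h₁₀⟩

/-- Every bundle becomes rigidified after a twist by the base. -/
theorem exists_rigidify (E : Bundle C R) : ∃ (Q : Type u) (_ : AddCommGroup Q) (_ : Module R Q)
    (_ : Module.Invertible R Q) (F : Bundle C R), IsBaseTwist E Q F ∧ F.IsRigidified := by
  obtain ⟨Q, i₁, i₂, i₃, F, hF, hr⟩ := exists_rigidifying_twist E
  exact ⟨Q, i₁, i₂, i₃, F, hF, hr⟩

/-- A twist by the base between rigidified bundles is an isomorphism. -/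
theorem iso_of_baseTwist {E F : Bundle C R} {Q : Type u} [AddCommGroup Q] [Module R Q]
    [Module.Invertible R Q] (h : IsBaseTwist E Q F) (hE : E.IsRigidified) (hF : F.IsRigidified) :
    E.Iso F := by
  exact iso_of_twist h hE hF

end Bundle

end FLTAgent.JacRep
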