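import Fermat.Agent.JacRep.Defs
import Fermat.Agent.JacRep.Ops
import Fermat.Agent.JacRep.Coh.Complex
import Mathlib.RingTheory.LocalRing.ResidueField.Ideal
import Mathlib.RingTheory.Spectrum.Prime.Topology
import Mathlib.Topology.LocallyConstant.Basic

/-!
# Cohomology of bundles over a varying base

Read off from the complex of finite projective modules of `Coh/Complex`:
* `exists_acyclic_ideal`, `IsPullback.acyclic`: acyclicity is stable under pullback and is an open
  condition, cut out by an ideal, when the Euler characteristic of the fibres is zero.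
* `euler_pullback`, `euler_isLocallyConstant`: the Euler characteristic is invariant under field
  extension and locally constant on the base.
* `finite_kerDiff`, `acyclic_iff_field`: finiteness and vanishing of cohomology over a field.
* `global_eq`: the functions on `C × Spec R` are `R`.
-/

set_option autoImplicit false
set_option linter.style.haveILetI false

noncomputable section

open scoped TensorProduct
open TensorProduct

universe u

namespace FLTAgent.JacRep.Bundle

variable {k : Type u} [Field k] {C : Cover k} {R : Type u} [CommRing R] [Algebra k R]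
  {R' : Type u} [CommRing R'] [Algebra k R']

open TwoTerm

attribute [local instance] rModule₀ rModule₁ rModule

/-- Acyclicity is bijectivity of the differential of the complex. -/
theorem acyclic_iff_cplx (E : Bundle C R) {N : ℕ} (e : Fin N → E.M)
    (hs : Function.Surjective (E.cplxExt e)) :
    E.Acyclic ↔ Function.Bijective (cplxD E.lin₀ E.lin₁ e) := by
  rw [Acyclic, diff_eq_diffLin]
  exact bijective_diff_iff E.lin₀ E.lin₁ e E.diffLin E.diffLin_apply hs

/-- Acyclicity of a pullback is bijectivity of the base change of the differential. -/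
theorem acyclic_pullback_iff [Algebra R R'] [IsScalarTower k R R'] {E : Bundle C R} {N : ℕ}
    {e : Fin N → E.M} (hs : Function.Surjective (E.cplxExt e)) {E' : Bundle C R'}
    (h : IsPullback (IsScalarTower.toAlgHom k R R') E E') :
    E'.Acyclic ↔ Function.Bijective ((cplxD E.lin₀ E.lin₁ e).baseChange R') := by
  obtain ⟨e', hs', χ, hχ⟩ := exists_complex_pullback E e hs h
  rw [acyclic_iff_cplx E' e' hs', ← Function.Bijective.of_comp_iff _ χ.bijective,
    show (cplxD E'.lin₀ E'.lin₁ e' : _ → _) ∘ χ =
      TensorProduct.piScalarRight R R' R' (Fin N) ∘ (cplxD E.lin₀ E.lin₁ e).baseChange R' from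
      funext hχ,
    Function.Bijective.of_comp_iff' (TensorProduct.piScalarRight R R' R' (Fin N)).bijective]

/-- The Euler characteristic is that of the complex. -/
theorem euler_eq {K : Type u} [Field K] [Algebra k K] (E : Bundle C K) {N : ℕ} (e : Fin N → E.M)
    (hs : Function.Surjective (E.cplxExt e)) [Module.Finite K (cplxKer E.lin₀ E.lin₁ e)] :
    E.euler = (Module.finrank K (cplxKer E.lin₀ E.lin₁ e) : ℤ) - N :=
  finrank_sub_finrank E.lin₀ E.lin₁ e E.diffLin E.diffLin_apply hs

/-- The Euler characteristic of a pullback to a field is a rank of the complex. -/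
theorem euler_pullback_eq {K : Type u} [Field K] [Algebra k K] [Algebra R K] [IsScalarTower k R K]
    {E : Bundle C R} {N : ℕ} {e : Fin N → E.M} (hs : Function.Surjective (E.cplxExt e))
    [Module.Finite R (cplxKer E.lin₀ E.lin₁ e)] {E' : Bundle C K}
    (h : IsPullback (IsScalarTower.toAlgHom k R K) E E') :
    E'.euler = (Module.finrank K (K ⊗[R] cplxKer E.lin₀ E.lin₁ e) : ℤ) - N := by
  obtain ⟨e', hs', χ, -⟩ := exists_complex_pullback E e hs h
  haveI : Module.Finite K (cplxKer E'.lin₀ E'.lin₁ e') := Module.Finite.equiv χ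
  rw [euler_eq E' e' hs', χ.finrank_eq]

/-- Pullbacks of acyclic bundles are acyclic. -/
theorem IsPullback.acyclic {φ : R →ₐ[k] R'} {E : Bundle C R} {E' : Bundle C R'}
    (h : IsPullback φ E E') (hE : E.Acyclic) : E'.Acyclic := by
  letI : Algebra R R' := φ.toRingHom.toAlgebra
  haveI : IsScalarTower k R R' := IsScalarTower.of_algebraMap_eq fun c => (φ.commutes c).symm
  obtain ⟨N, e, hs, -, -⟩ := E.exists_complex
  rw [acyclic_pullback_iff hs (h : IsPullback (IsScalarTower.toAlgHom k R R') E E')]
  exact ((LinearEquiv.ofBijective _ ((acyclic_iff_cplx E e hs).1 hE)).baseChange R R').bijective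

/-- The acyclic locus is open: cut out by an ideal. -/
theorem exists_acyclic_ideal (E : Bundle C R)
    (hχ : ∀ (K : Type u) [Field K] [Algebra k K] (φ : R →ₐ[k] K) (E' : Bundle C K),
      IsPullback φ E E' → E'.euler = 0) :
    ∃ I : Ideal R, ∀ (S : Type u) [CommRing S] [Algebra k S] (φ : R →ₐ[k] S) (E' : Bundle C S),
      IsPullback φ E E' → (E'.Acyclic ↔ I.map (φ : R →+* S) = ⊤) := by
  classical
  obtain ⟨N, e, hs, hfin, hproj⟩ := E.exists_complex
  haveI := hfin
  haveI := hproj
  have hrank : ∀ p : PrimeSpectrum R, Module.rankAtStalk (cplxKer E.lin₀ E.lin₁ e) p = N := by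
    intro p
    obtain ⟨E', hE'⟩ := exists_pullback (IsScalarTower.toAlgHom k R p.asIdeal.ResidueField) E
    have h := hχ p.asIdeal.ResidueField _ E' hE'
    rw [euler_pullback_eq hs hE'] at h
    rw [Module.rankAtStalk_eq]
    show Module.finrank p.asIdeal.ResidueField
      (p.asIdeal.ResidueField ⊗[R] cplxKer E.lin₀ E.lin₁ e) = N
    omega
  refine ⟨Module.annihilator R ((Fin N → R) ⧸ LinearMap.range (cplxD E.lin₀ E.lin₁ e)),
    fun S _ _ φ E' h => ?_⟩
  letI : Algebra R S := φ.toRingHom.toAlgebra
  haveI : IsScalarTower k R S := IsScalarTower.of_algebraMap_eq fun c => (φ.commutes c).symm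
  rw [acyclic_pullback_iff hs (h : IsPullback (IsScalarTower.toAlgHom k R S) E E')]
  refine Iff.trans ⟨fun hb => hb.2, fun hd => ?_⟩
    ((surjective_baseChange_iff _).trans (subsingleton_tensor_iff _))
  have hbij := bijective_of_rank_eq (R := S)
    (d := (TensorProduct.piScalarRight R S S (Fin N)).toLinearMap ∘ₗ
      (cplxD E.lin₀ E.lin₁ e).baseChange S)
    ((TensorProduct.piScalarRight R S S (Fin N)).surjective.comp hd)
    (fun p => by rw [Module.rankAtStalk_baseChange, hrank])
  exact (Function.Bijective.of_comp_iff'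
    (TensorProduct.piScalarRight R S S (Fin N)).bijective _).1 hbij

/-- The Euler characteristic does not change under extension of the field. -/
theorem euler_pullback {K L : Type u} [Field K] [Field L] [Algebra k K] [Algebra k L]
    {φ : K →ₐ[k] L} {E : Bundle C K} {E' : Bundle C L} (h : IsPullback φ E E') :
    E'.euler = E.euler := by
  letI : Algebra K L := φ.toRingHom.toAlgebra
  haveI : IsScalarTower k K L := IsScalarTower.of_algebraMap_eq fun c => (φ.commutes c).symm
  obtain ⟨N, e, hs, hfin, -⟩ := E.exists_complex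
  haveI := hfin
  rw [euler_eq E e hs, euler_pullback_eq hs (h : IsPullback (IsScalarTower.toAlgHom k K L) E E'),
    Module.finrank_baseChange]

/-- Cohomology over a field is finite, and vanishes together with sections and characteristic. -/
theorem acyclic_iff_field {K : Type u} [Field K] [Algebra k K] (E : Bundle C K) :
    E.Acyclic ↔ E.euler = 0 ∧ Function.Injective E.diff := by
  obtain ⟨N, e, hs, hfin, -⟩ := E.exists_complex
  haveI := hfin
  obtain ⟨h1, h2⟩ := finite_cohomology E.lin₀ E.lin₁ e E.diffLin E.diffLin_apply hs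
  haveI := h1
  haveI := h2
  have he : E.euler = (Module.finrank K (LinearMap.ker E.diffLin) : ℤ) -
      Module.finrank K (E.M ⧸ LinearMap.range E.diffLin) := rfl
  have hc : Function.Surjective E.diffLin ↔
      Module.finrank K (E.M ⧸ LinearMap.range E.diffLin) = 0 := by
    rw [Module.finrank_zero_iff, Submodule.Quotient.subsingleton_iff, LinearMap.range_eq_top]
  have hk : Function.Injective E.diffLin → Module.finrank K (LinearMap.ker E.diffLin) = 0 :=
    fun hi => by rw [LinearMap.ker_eq_bot.2 hi, finrank_bot]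
  rw [Acyclic, diff_eq_diffLin]
  constructor
  · intro hb
    refine ⟨?_, hb.1⟩
    rw [he, hk hb.1, hc.1 hb.2, sub_self]
  · rintro ⟨h0, hi⟩
    refine ⟨hi, hc.2 ?_⟩
    rw [he, hk hi] at h0
    omega

/-- Over a field the cohomology is finite dimensional. -/
theorem finite_kerDiff {K : Type u} [Field K] [Algebra k K] (E : Bundle C K) :
    letI := E.rModule₀; letI := E.rModule₁; letI := E.rModule
    Module.Finite K (LinearMap.ker E.diffLin) ∧
      Module.Finite K (E.M ⧸ LinearMap.range E.diffLin) := by
  obtain ⟨N, e, hs, hfin, -⟩ := E.exists_complex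
  haveI := hfin
  exact finite_cohomology E.lin₀ E.lin₁ e E.diffLin E.diffLin_apply hs

/-- The Euler characteristic is locally constant on the base. -/
theorem euler_isLocallyConstant (E : Bundle C R) :
    ∃ χ : PrimeSpectrum R → ℤ, IsLocallyConstant χ ∧
      ∀ (K : Type u) [Field K] [Algebra k K] (φ : R →ₐ[k] K) (E' : Bundle C K),
        IsPullback φ E E' →
          E'.euler = χ ⟨RingHom.ker (φ : R →+* K), RingHom.ker_isPrime _⟩ := by
  obtain ⟨N, e, hs, hfin, hproj⟩ := E.exists_complex
  haveI := hfin
  haveI := hproj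
  haveI : Module.FinitePresentation R (cplxKer E.lin₀ E.lin₁ e) :=
    Module.finitePresentation_of_projective R _
  refine ⟨fun p => (Module.rankAtStalk (cplxKer E.lin₀ E.lin₁ e) p : ℤ) - N,
    Module.isLocallyConstant_rankAtStalk.comp fun n : ℕ => (n : ℤ) - N, fun K _ _ φ E' h => ?_⟩
  letI : Algebra R K := φ.toRingHom.toAlgebra
  haveI : IsScalarTower k R K := IsScalarTower.of_algebraMap_eq fun c => (φ.commutes c).symm
  have h1 : Module.rankAtStalk (K ⊗[R] cplxKer E.lin₀ E.lin₁ e)
      (⟨⊥, Ideal.isPrime_bot⟩ : PrimeSpectrum K) =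
      Module.rankAtStalk (cplxKer E.lin₀ E.lin₁ e)
        ((⟨⊥, Ideal.isPrime_bot⟩ : PrimeSpectrum K).comap (algebraMap R K)) :=
    Module.rankAtStalk_baseChange _
  rw [Module.rankAtStalk_eq_finrank_of_free] at h1
  have hp : (⟨⊥, Ideal.isPrime_bot⟩ : PrimeSpectrum K).comap (algebraMap R K) =
      ⟨RingHom.ker (φ : R →+* K), RingHom.ker_isPrime _⟩ := rfl
  rw [hp] at h1
  rw [euler_pullback_eq hs (h : IsPullback (IsScalarTower.toAlgHom k R K) E E')]
  show _ = (Module.rankAtStalk _ _ : ℤ) - N
  rw [← h1]
  rfl

/-- The global functions of `C × Spec R` are `R`. -/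
theorem global_eq (a₀ : C.B₀ R) (a₁ : C.B₁ R) (h : C.resB₀ R a₀ = C.resB₁ R a₁) :
    ∃ r : R, a₀ = r ⊗ₜ[k] (1 : C.A₀) := by
  classical
  let b := Module.Free.chooseBasis k R
  let eA := fun (A : Type u) [CommRing A] [Algebra k A] =>
    TensorProduct.equivFinsuppOfBasisLeft (N := A) b
  have hnat : ∀ (A : Type u) [CommRing A] [Algebra k A] (f : A →ₐ[k] C.A) (z : R ⊗[k] A) i,
      eA C.A (Algebra.TensorProduct.map (AlgHom.id k R) f z) i = f (eA A z i) := by
    intro A _ _ f z i
    induction z using TensorProduct.induction_on with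
    | zero => simp
    | tmul r a => simp [eA]
    | add u v hu hv => simp only [map_add, Finsupp.add_apply, hu, hv]
  have hc : ∀ i, ∃ c : k, eA C.A₀ a₀ i = algebraMap k C.A₀ c := fun i =>
    C.global _ (eA C.A₁ a₁ i) (by
      rw [← hnat C.A₀ C.res₀ a₀ i, ← hnat C.A₁ C.res₁ a₁ i]
      exact DFunLike.congr_fun (congrArg (eA C.A) h) i)
  choose c hc using hc
  refine ⟨∑ i ∈ (eA C.A₀ a₀).support, c i • b i, (eA C.A₀).injective ?_⟩
  refine Finsupp.ext fun i => ?_
  rw [TensorProduct.sum_tmul, map_sum, Finsupp.finsetSum_apply]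
  rw [Finset.sum_eq_single i]
  · rw [hc i]; simp [eA, Algebra.algebraMap_eq_smul_one]
  · intro j _ hj; simp [eA, hj]
  · intro hi
    rw [Finsupp.notMem_support_iff] at hi
    have : algebraMap k C.A₀ (c i) = 0 := (hc i).symm.trans hi
    simp [eA, ← Algebra.algebraMap_eq_smul_one, this]

end FLTAgent.JacRep.Bundle
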