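import Fermat.Agent.JacRep.Defs
import Fermat.Agent.JacRep.Ops
import Fermat.Agent.JacRep.Degree.Families
import Fermat.Agent.JacRep.Degree.Acyclic

/-!
# Degree zero bundles

* `Bundle.DegreeZero`: on every field-valued fibre the Euler characteristic is that of the trivial
  bundle.
* `Bundle.euler_tensor`: the Euler characteristic is additive in tensor products.
* `Bundle.exists_acyclicTwist`: over an algebraically closed field a degree zero bundle has an
  acyclic twist by a bundle defined over `k`.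
* `Bundle.exists_pointBundles`: the families `Q ↦ O(Q - base)` on the two charts, and the fact
  that every degree zero bundle over an algebraically closed field is a sum of `g` of their
  members (computed in the group of classes of `Degree/*`).
-/

set_option autoImplicit false
set_option linter.style.haveILetI false

noncomputable section

open scoped TensorProduct

universe u

namespace FLTAgent.JacRep

variable {k : Type u} [Field k] (C : Cover k)

namespace Bundle

/-- `E` has degree zero: its Euler characteristic is that of the trivial bundle. -/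
def DegreeZero {C : Cover k} {R : Type u} [CommRing R] [Algebra k R] (E : Bundle C R) : Prop :=
  ∀ (K : Type u) [Field K] [Algebra k K] (φ : R →ₐ[k] K) (E' U : Bundle C K),
    IsPullback φ E E' →
      (∃ (e₀ : U.M₀ ≃ₗ[C.B₀ K] C.B₀ K) (e₁ : U.M₁ ≃ₗ[C.B₁ K] C.B₁ K)
        (e : U.M ≃ₗ[C.B K] C.B K), (∀ m, e (U.ι₀ m) = C.resB₀ K (e₀ m)) ∧
          ∀ m, e (U.ι₁ m) = C.resB₁ K (e₁ m)) →
        E'.euler = U.euler

set_option linter.unusedVariables false in
/-- Degree zero bundles have acyclic twists defined over the ground field. -/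
theorem exists_acyclicTwist [IsAlgClosed k] {K : Type u} [Field K] [IsAlgClosed K] [Algebra k K]
    (E : Bundle C K) (hE : E.DegreeZero) :
    ∃ (E₀ : Bundle C k) (E₀' F : Bundle C K), IsPullback (Algebra.ofId k K) E₀ E₀' ∧
      IsTensor E E₀' F ∧ F.Acyclic := by
  exact exists_twist_acyclic E

/-- The Euler characteristic is additive: `χ(E ⊗ E') - χ(E') = χ(E) - χ(O)`. -/
theorem euler_tensor {K : Type u} [Field K] [Algebra k K] (E E' F U : Bundle C K)
    (h : IsTensor E E' F)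
    (hU : ∃ (e₀ : U.M₀ ≃ₗ[C.B₀ K] C.B₀ K) (e₁ : U.M₁ ≃ₗ[C.B₁ K] C.B₁ K)
      (e : U.M ≃ₗ[C.B K] C.B K), (∀ m, e (U.ι₀ m) = C.resB₀ K (e₀ m)) ∧
        ∀ m, e (U.ι₁ m) = C.resB₁ K (e₁ m)) :
    F.euler + U.euler = E.euler + E'.euler := by
  have h1 := clsEuler_mul_field (cls E) (cls E')
  rw [cls_tensor h, ← cls_unit (U := U) hU] at h1
  exact h1

/-- The families `Q ↦ O(Q - base)` on the two charts: rigidified, of degree zero, agreeing on
the overlap. -/
theorem exists_pointBundles [IsAlgClosed k] :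
    ∃ (P₀ : Bundle C C.A₀) (P₁ : Bundle C C.A₁) (P : Bundle C C.A),
      (P₀.IsRigidified ∧ P₀.DegreeZero) ∧ (P₁.IsRigidified ∧ P₁.DegreeZero) ∧
      IsPullback C.res₀ P₀ P ∧ IsPullback C.res₁ P₁ P ∧
      -- the member at the base point is trivial
      (∃ U : Bundle C k, IsPullback C.base P₀ U ∧
        ∃ (e₀ : U.M₀ ≃ₗ[C.B₀ k] C.B₀ k) (e₁ : U.M₁ ≃ₗ[C.B₁ k] C.B₁ k) (e : U.M ≃ₗ[C.B k] C.B k),
          (∀ m, e (U.ι₀ m) = C.resB₀ k (e₀ m)) ∧ ∀ m, e (U.ι₁ m) = C.resB₁ k (e₁ m)) ∧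
      -- every bundle of degree zero over an algebraically closed field is a sum of `g` of them
      ∃ g : ℕ, ∀ (K : Type u) [Field K] [IsAlgClosed K] [Algebra k K] (E : Bundle C K),
        E.IsRigidified → E.DegreeZero →
          ∃ (Q : Fin g → Bundle C K) (S : Fin (g + 1) → Bundle C K),
            (∀ i, (∃ φ : C.A₀ →ₐ[k] K, IsPullback φ P₀ (Q i)) ∨
              ∃ φ : C.A₁ →ₐ[k] K, IsPullback φ P₁ (Q i)) ∧
            (∃ (e₀ : (S 0).M₀ ≃ₗ[C.B₀ K] C.B₀ K) (e₁ : (S 0).M₁ ≃ₗ[C.B₁ K] C.B₁ K)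
              (e : (S 0).M ≃ₗ[C.B K] C.B K), (∀ m, e ((S 0).ι₀ m) = C.resB₀ K (e₀ m)) ∧
                ∀ m, e ((S 0).ι₁ m) = C.resB₁ K (e₁ m)) ∧
            (∀ i : Fin g, IsTensor (S i.castSucc) (Q i) (S i.succ)) ∧ E.Iso (S (Fin.last g)) := by
  obtain ⟨P₀, h₀⟩ := cls_surjective (family₀ C)
  obtain ⟨P₁, h₁⟩ := cls_surjective (family₁ C)
  obtain ⟨P, hP⟩ := cls_surjective (mapCls C.res₀ (family₀ C))
  obtain ⟨U₀, hU₀⟩ := exists_unit C k
  refine ⟨P₀, P₁, P, ⟨isRigidified_family₀ C h₀, ?_⟩, ⟨isRigidified_family₁ C h₁, ?_⟩,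
    isPullback_of_cls (by rw [h₀, hP]), isPullback_of_cls (by rw [h₁, hP, mapCls_family_overlap]),
    ⟨U₀, isPullback_of_cls ?_, hU₀⟩, (1 - clsEuler (1 : Cls C k)).toNat,
    fun K _ _ _ E _ hE => ?_⟩
  · intro K _ _ φ E' U hE hU
    exact degreeZero_of_diff h₀ (fun L _ _ _ ψ => by
      rw [mapCls_family₀]
      exact clsEuler_diff_points C (Or.inl ⟨_, rfl⟩) (Or.inl ⟨_, rfl⟩)) K φ E' U hE hU
  · intro K _ _ φ E' U hE hU
    exact degreeZero_of_diff h₁ (fun L _ _ _ ψ => by
      rw [mapCls_family₁]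
      exact clsEuler_diff_points C (Or.inl ⟨_, rfl⟩) (Or.inr ⟨_, rfl⟩)) K φ E' U hE hU
  · rw [h₀, mapCls_family₀, cls_unit hU₀,
      show (Algebra.ofId k k).comp C.base = C.base from AlgHom.ext fun _ => rfl, mul_inv_cancel]
  · obtain ⟨U, hU⟩ := exists_unit C K
    have hc : clsEuler (cls E) = clsEuler (1 : Cls C K) := by
      rw [← cls_unit hU, clsEuler_cls, clsEuler_cls]
      exact hE K (AlgHom.id k K) E U (isPullback_id E) hU
    obtain ⟨q, hq, hprod⟩ := exists_decomposition C K (cls E) hc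
    choose Q hQ using fun i => cls_surjective (q i)
    choose S hS using fun n : Fin ((1 - clsEuler (1 : Cls C k)).toNat + 1) =>
      cls_surjective (Fin.partialProd q n)
    refine ⟨Q, S, fun i => ?_, isUnitBundle_of_cls ((hS 0).trans (Fin.partialProd_zero q)),
      fun i => isTensor_of_cls (by rw [hS, hQ, hS, Fin.partialProd_succ]), ?_⟩
    · rcases hq i with ⟨φ, hφ⟩ | ⟨φ, hφ⟩
      · exact Or.inl ⟨φ, isPullback_of_cls (by rw [h₀, hQ, hφ])⟩
      · exact Or.inr ⟨φ, isPullback_of_cls (by rw [h₁, hQ, hφ])⟩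
    · rw [← cls_eq_iff, hS, hprod, ← Fin.prod_ofFn]
      simp [Fin.partialProd, List.take_of_length_le]

end Bundle

end FLTAgent.JacRep
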