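import Fermat.Agent.JacRep.Defs
import Fermat.Agent.JacRep.Ops
import Fermat.Agent.JacRep.Degree
import Fermat.Agent.JacRep.Charts.Universal
import Fermat.Agent.JacRep.Charts.Small
import Mathlib.RingTheory.Smooth.Basic
import Mathlib.RingTheory.FinitePresentation

/-!
# The affine charts of the Jacobian

`ChartFamily C` packages open conditions on rigidified bundles of degree zero, each represented by
a finitely presented smooth algebra with a universal bundle, which together cover the geometric
points. `nonempty_chartFamily` constructs one: a chart is indexed by a bundle `E₀` over `k` of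
Euler characteristic zero and a rooted tree, and consists of the bundles whose twist by `E₀` is
acyclic and good along the tree; it covers by `Bundle.exists_acyclicTwist` and
`Charts.exists_treeGood`.
-/

set_option autoImplicit false
set_option linter.style.haveILetI false

noncomputable section

open scoped TensorProduct

universe u

namespace FLTAgent.JacRep

variable {k : Type u} [Field k] (C : Cover k)

/-- Charts: open conditions on rigidified bundles of degree zero, each represented by a smooth
affine finitely presented algebra, covering the geometric points. -/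
structure ChartFamily : Type (u + 1) where
  Index : Type u
  Good : Index → ∀ (R : Type u) [CommRing R] [Algebra k R], Bundle C R → Prop
  ring : Index → Type u
  [instCommRing : ∀ i, CommRing (ring i)]
  [instAlgebra : ∀ i, Algebra k (ring i)]
  finitePresentation : ∀ i, Algebra.FinitePresentation k (ring i)
  formallySmooth : ∀ i, Algebra.FormallySmooth k (ring i)
  univ : ∀ i, Bundle C (ring i)
  univ_rigidified : ∀ i, (univ i).IsRigidified
  univ_degreeZero : ∀ i, (univ i).DegreeZero
  univ_good : ∀ i, Good i (ring i) (univ i)
  /-- the condition is open -/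
  isOpen : ∀ (i : Index) (R : Type u) [CommRing R] [Algebra k R] (E : Bundle C R),
    E.IsRigidified → E.DegreeZero →
      ∃ I : Ideal R, ∀ (S : Type u) [CommRing S] [Algebra k S] (φ : R →ₐ[k] S) (E' : Bundle C S),
        Bundle.IsPullback φ E E' → (Good i S E' ↔ I.map (φ : R →+* S) = ⊤)
  /-- the universal bundle represents it -/
  represents : ∀ (i : Index) (R : Type u) [CommRing R] [Algebra k R] (E : Bundle C R),
    E.IsRigidified → E.DegreeZero → Good i R E →
      ∃! φ : ring i →ₐ[k] R, ∃ E' : Bundle C R, Bundle.IsPullback φ (univ i) E' ∧ E'.Iso E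
  /-- the charts cover -/
  covers : ∀ (K : Type u) [Field K] [IsAlgClosed K] [Algebra k K] (E : Bundle C K),
    E.IsRigidified → E.DegreeZero → ∃ i, Good i K E

attribute [instance] ChartFamily.instCommRing ChartFamily.instAlgebra

open Charts in
/-- The charts exist: for a bundle of Euler characteristic zero over the ground field and a rooted
tree, the bundles whose twist is good along the tree. -/
theorem nonempty_chartFamily [IsAlgClosed k] : Nonempty (ChartFamily C) := by
  obtain ⟨ι, E₀, hE₀⟩ := exists_representatives C
  choose Eu E₀u Fu h₀ hu hp _ hEr using fun i : {j : ι // (E₀ j).euler = 0} × Tree C =>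
    exists_universal i.2 (E₀ i.1.1)
  exact ⟨{
    Index := {j : ι // (E₀ j).euler = 0} × Tree C
    Good := fun i R _ _ E => TwistGood i.2 (E₀ i.1.1) R E
    ring := fun i => ChartRing i.2
    finitePresentation := fun i => finitePresentation_chartRing i.2
    formallySmooth := fun i => formallySmooth_chartRing i.2
    univ := Eu
    univ_rigidified := hEr
    univ_degreeZero := fun i => universal_degreeZero (h₀ i) (hu i) (hp i) i.1.2
    univ_good := fun i => universal_good (h₀ i) (hu i) (hp i)
    isOpen := fun i R _ _ E _ hdeg => by
      obtain ⟨E₀', h₀'⟩ := (E₀ i.1.1).exists_pullback (Algebra.ofId k R)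
      obtain ⟨F, hF⟩ := Bundle.exists_tensor E E₀'
      obtain ⟨I, hI⟩ := exists_good_ideal i.2 F fun K _ _ φ F' hF' => by
        obtain ⟨E', hE'⟩ := E.exists_pullback φ
        obtain ⟨G, hG⟩ := E₀'.exists_pullback φ
        obtain ⟨H, hH⟩ := Bundle.exists_tensor E' G
        obtain ⟨U, hU⟩ := Bundle.exists_unit C K
        have h := euler_twist i.1.2 (isPullback_ofId_comp h₀' hG) hH (U := U) hU
        rw [hdeg K φ E' U hE' hU, add_eq_right] at h
        rw [euler_iso (Bundle.isPullback_unique (Bundle.iso_refl F)
          (Bundle.isTensor_pullback hE' hG hF hH) hF'), h]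
      refine ⟨I, fun S _ _ φ E' hE' => ?_⟩
      obtain ⟨G, hG⟩ := E₀'.exists_pullback φ
      obtain ⟨H, hH⟩ := Bundle.exists_tensor E' G
      rw [twistGood_iff (isPullback_ofId_comp h₀' hG) hH]
      exact hI S φ H (Bundle.isTensor_pullback hE' hG hF hH)
    represents := fun i R _ _ E hE _ hg =>
      universal_represents (h₀ i) (hu i) (hp i) hE hg
    covers := fun K _ _ _ E _ hdeg => by
      obtain ⟨L, L', F, hL, hF, hA⟩ := Bundle.exists_acyclicTwist C E hdeg
      obtain ⟨j, hj⟩ := hE₀ L
      have hL' : Bundle.IsPullback (Algebra.ofId k K) (E₀ j) L' :=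
        Bundle.isPullback_of_iso hj (Bundle.iso_refl L') hL
      obtain ⟨U, hU⟩ := Bundle.exists_unit C K
      have hj0 : (E₀ j).euler = 0 := by
        have h := Bundle.euler_tensor C E L' F U hF hU
        rw [hdeg K (AlgHom.id k K) E U (Bundle.isPullback_id E) hU, Bundle.euler_pullback hL',
          ((Bundle.acyclic_iff_field F).mp hA).1] at h
        linarith
      haveI := C.dedekind₀ K
      obtain ⟨T, hT⟩ := Charts.exists_treeGood hA
      exact ⟨(⟨j, hj0⟩, T), L', F, hL', hF, hT⟩ }⟩

end FLTAgent.JacRep
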