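import Fermat.Agent.JacRep.Dict

/-!
# Formal properties of trivial bundles, tensor products and degree zero

* `IsTrivial`: being isomorphic to the trivial bundle; such bundles are unique up to isomorphism,
  neutral for `Bundle.IsTensor`, and stable under pullback (through a `Dictionary`).
* `isTensor_congr`, `tensor_cancel`: tensor products respect isomorphisms and can be cancelled.
* `euler_congr`: isomorphic bundles over a field have the same Euler characteristic.
* `degreeZero_tensor`, `degreeZero_inverse`: degree zero is stable under tensor products and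
  inverses, by additivity of the Euler characteristic.
-/

set_option autoImplicit false
set_option linter.style.haveILetI false

noncomputable section

open CategoryTheory CategoryTheory.Limits AlgebraicGeometry AlgebraicGeometry.RelPicard
  NeronModelInfra

universe u

namespace FLTAgent.JacRep

section Bundles

variable {k : Type u} [Field k] {Cv : Cover k} {R : Type u} [CommRing R] [Algebra k R]

/-- The bundle is trivial. -/
def IsTrivial (U : Bundle Cv R) : Prop :=
  ∃ (e₀ : U.M₀ ≃ₗ[Cv.B₀ R] Cv.B₀ R) (e₁ : U.M₁ ≃ₗ[Cv.B₁ R] Cv.B₁ R) (e : U.M ≃ₗ[Cv.B R] Cv.B R),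
    (∀ m, e (U.ι₀ m) = Cv.resB₀ R (e₀ m)) ∧ ∀ m, e (U.ι₁ m) = Cv.resB₁ R (e₁ m)

/-- Trivial bundles are isomorphic. -/
theorem IsTrivial.iso {U U' : Bundle Cv R} (h : IsTrivial U) (h' : IsTrivial U') : U.Iso U' := by
  obtain ⟨e₀, e₁, e, h₀, h₁⟩ := h
  obtain ⟨f₀, f₁, f, g₀, g₁⟩ := h'
  refine ⟨e₀.trans f₀.symm, e₁.trans f₁.symm, e.trans f.symm, fun m => ?_, fun m => ?_⟩
  · apply f.injective
    rw [LinearEquiv.trans_apply, LinearEquiv.apply_symm_apply, g₀, LinearEquiv.trans_apply,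
      LinearEquiv.apply_symm_apply, h₀]
  · apply f.injective
    rw [LinearEquiv.trans_apply, LinearEquiv.apply_symm_apply, g₁, LinearEquiv.trans_apply,
      LinearEquiv.apply_symm_apply, h₁]

theorem IsTrivial.of_iso {U U' : Bundle Cv R} (h : IsTrivial U) (h' : U'.Iso U) :
    IsTrivial U' := by
  obtain ⟨e₀, e₁, e, h₀, h₁⟩ := h
  obtain ⟨f₀, f₁, f, g₀, g₁⟩ := h'
  exact ⟨f₀.trans e₀, f₁.trans e₁, f.trans e, fun m => by simp [g₀, h₀],
    fun m => by simp [g₁, h₁]⟩

/-- The trivial bundle is neutral. -/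
theorem IsTrivial.isTensor_left (A : Bundle Cv R) {U : Bundle Cv R} (h : IsTrivial U) :
    Bundle.IsTensor U A A := by
  obtain ⟨e₀, e₁, e, h₀, h₁⟩ := h
  refine ⟨(LinearMap.lsmul (Cv.B₀ R) A.M₀).comp e₀.toLinearMap,
    (LinearMap.lsmul (Cv.B₁ R) A.M₁).comp e₁.toLinearMap,
    (LinearMap.lsmul (Cv.B R) A.M).comp e.toLinearMap, ?_, ?_, fun a b => ?_, fun a b => ?_⟩
  · exact Submodule.eq_top_iff'.2 fun z =>
      Submodule.subset_span ⟨e₀.symm 1, z, by simp⟩
  · exact Submodule.eq_top_iff'.2 fun z =>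
      Submodule.subset_span ⟨e₁.symm 1, z, by simp⟩
  · simp [h₀, LinearMap.map_smulₛₗ]
  · simp [h₁, LinearMap.map_smulₛₗ]

/-- Tensor products transport along isomorphisms. -/
theorem isTensor_congr {E E' F G G' H : Bundle Cv R} (h : Bundle.IsTensor E E' F) (hG : E.Iso G)
    (hG' : E'.Iso G') (hH : F.Iso H) : Bundle.IsTensor G G' H := by
  obtain ⟨μ₀, μ₁, μ, hs₀, hs₁, h₀, h₁⟩ := h
  obtain ⟨a₀, a₁, a, ha₀, ha₁⟩ := hG
  obtain ⟨b₀, b₁, b, hb₀, hb₁⟩ := hG'
  obtain ⟨c₀, c₁, c, hc₀, hc₁⟩ := hH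
  refine ⟨((μ₀.comp a₀.symm.toLinearMap).compl₂ b₀.symm.toLinearMap).compr₂ c₀.toLinearMap,
    ((μ₁.comp a₁.symm.toLinearMap).compl₂ b₁.symm.toLinearMap).compr₂ c₁.toLinearMap,
    ((μ.comp a.symm.toLinearMap).compl₂ b.symm.toLinearMap).compr₂ c.toLinearMap,
    ?_, ?_, fun x y => ?_, fun x y => ?_⟩
  · rw [eq_top_iff, ← LinearMap.range_eq_top.2 c₀.surjective, LinearMap.range_eq_map, ← hs₀,
      Submodule.map_span]
    refine Submodule.span_mono ?_
    rintro _ ⟨_, ⟨x, y, rfl⟩, rfl⟩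
    exact ⟨a₀ x, b₀ y, by simp⟩
  · rw [eq_top_iff, ← LinearMap.range_eq_top.2 c₁.surjective, LinearMap.range_eq_map, ← hs₁,
      Submodule.map_span]
    refine Submodule.span_mono ?_
    rintro _ ⟨_, ⟨x, y, rfl⟩, rfl⟩
    exact ⟨a₁ x, b₁ y, by simp⟩
  · obtain ⟨x, rfl⟩ := a₀.surjective x
    obtain ⟨y, rfl⟩ := b₀.surjective y
    simp [← ha₀, ← hb₀, h₀, hc₀]
  · obtain ⟨x, rfl⟩ := a₁.surjective x
    obtain ⟨y, rfl⟩ := b₁.surjective y
    simp [← ha₁, ← hb₁, h₁, hc₁]

/-- A tensor factor cancels. -/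
theorem tensor_cancel {X X' E F F' : Bundle Cv R} (h : Bundle.IsTensor X E F)
    (h' : Bundle.IsTensor X' E F') (hFF : F.Iso F') : X.Iso X' := by
  obtain ⟨E', U, hE', hU, -⟩ := Bundle.exists_inverse E
  obtain ⟨G, hG⟩ := Bundle.exists_tensor F E'
  obtain ⟨G', hG'⟩ := Bundle.exists_tensor F' E'
  have hXU : Bundle.IsTensor X U X := Bundle.isTensor_comm (IsTrivial.isTensor_left X hU)
  have hXU' : Bundle.IsTensor X' U X' := Bundle.isTensor_comm (IsTrivial.isTensor_left X' hU)
  exact Bundle.iso_trans (Bundle.iso_symm (Bundle.isTensor_assoc h hG hE' hXU))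
    (Bundle.iso_trans (Bundle.isTensor_unique hFF (Bundle.iso_refl _) hG hG')
      (Bundle.isTensor_assoc h' hG' hE' hXU'))

/-- Isomorphic bundles over a field have the same Euler characteristic. -/
theorem euler_congr {K : Type u} [Field K] [Algebra k K] {E E' : Bundle Cv K} (h : E.Iso E') :
    E'.euler = E.euler :=
  Bundle.euler_pullback (Bundle.isPullback_of_iso (Bundle.iso_refl E) h (Bundle.isPullback_id E))

/-- Degree zero for tensors. -/
theorem degreeZero_tensor {E E' F : Bundle Cv R} (h : Bundle.IsTensor E E' F) (hE : E.DegreeZero)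
    (hE' : E'.DegreeZero) : F.DegreeZero := by
  intro K _ _ φ X U hX hU
  obtain ⟨G, hG⟩ := Bundle.exists_pullback φ E
  obtain ⟨G', hG'⟩ := Bundle.exists_pullback φ E'
  obtain ⟨H, hH⟩ := Bundle.exists_tensor G G'
  rw [euler_congr (Bundle.isPullback_unique (Bundle.iso_refl F)
    (Bundle.isTensor_pullback hG hG' h hH) hX)]
  have h₁ := Bundle.euler_tensor _ G G' H U hH hU
  rw [hE K φ G U hG hU, hE' K φ G' U hG' hU] at h₁
  omega

end Bundles

variable {k : Type u} [Field k] {Cv : Cover k} {C : Scheme.{u}}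
  {c : C ⟶ Spec (CommRingCat.of k)} {ε : SchemeHomOver (𝟙 (Spec (CommRingCat.of k))) c}
  {W : Realization Cv c ε} {R : Type u} [CommRing R] [Algebra k R]
  {S : Type u} [CommRing S] [Algebra k S]

/-- Pullbacks of the trivial bundle are trivial. -/
theorem IsTrivial.pullback {U : Bundle Cv R} {U' : Bundle Cv S} {φ : R →ₐ[k] S}
    (D : Dictionary W) (h : IsTrivial U) (h' : Bundle.IsPullback φ U U') : IsTrivial U' := by
  have hp := D.isPullback R S φ (RigidifiedLineBundle.unit (specStr k R))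
  have hi : Nonempty (((RigidifiedLineBundle.unit (c := c) (ε := ε) (specStr k R)).pullbackAlong
      (specOver φ)).L ≅ (RigidifiedLineBundle.unit (c := c) (ε := ε) (specStr k S)).L) :=
    ⟨Scheme.Modules.pullbackUnitIso _⟩
  refine IsTrivial.of_iso (D.unit_trivial S) (Bundle.isPullback_unique
    (IsTrivial.iso h (D.unit_trivial R)) h' (Bundle.isPullback_of_iso (Bundle.iso_refl _)
      ((D.iso_iff S _ _).2 hi) hp))

/-- A tensor inverse of a bundle of degree zero has degree zero. -/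
theorem degreeZero_inverse {E E' F : Bundle Cv R} (D : Dictionary W) (h : Bundle.IsTensor E E' F)
    (hF : IsTrivial F) (hE : E.DegreeZero) : E'.DegreeZero := by
  intro K _ _ φ X U hX hU
  obtain ⟨G, hG⟩ := Bundle.exists_pullback φ E
  obtain ⟨H, hH⟩ := Bundle.exists_tensor G X
  have hHt : IsTrivial H := hF.pullback D (Bundle.isTensor_pullback hG hX h hH)
  have h₁ := Bundle.euler_tensor _ G X H U hH hU
  rw [hE K φ G U hG hU, ← euler_congr (IsTrivial.iso hHt hU)] at h₁
  omega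

end FLTAgent.JacRep
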