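import Fermat.Agent.JacRep.Defs
import Fermat.Agent.JacRep.CurveA.Build
import Fermat.Prelude.Def_AlgebraicGeometry_RelPicardAlgEquivZeroCut

/-!
# A smooth proper curve as a cover of the line

* `specStr`, `specOver`: affine schemes over `k` and their morphisms.
* `Realization Cv c ε`: open immersions of the two charts of a `Cover` into `C`, covering it and
  meeting in the common localisation, with base point `ε`.
* `exists_cover`: over an algebraically closed field every smooth proper integral curve with a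
  rational point has one. A coordinate with reduced zero fibre is chosen (`CurveA/Build`); its
  charts are the loci where it, respectively its inverse, is regular, finite over the affine line
  (`CurveA/Scheme`).
-/

set_option autoImplicit false
set_option linter.style.haveILetI false

noncomputable section

open CategoryTheory CategoryTheory.Limits AlgebraicGeometry NeronModelInfra

universe u

namespace FLTAgent.JacRep

variable {k : Type u} [Field k]

/-- The structure morphism of an affine `k`-scheme. -/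
abbrev specStr (k : Type u) [Field k] (R : Type u) [CommRing R] [Algebra k R] :
    Spec (CommRingCat.of R) ⟶ Spec (CommRingCat.of k) :=
  Spec.map (CommRingCat.ofHom (algebraMap k R))

/-- The morphism of affine `k`-schemes of an algebra map. -/
def specOver {R S : Type u} [CommRing R] [CommRing S] [Algebra k R] [Algebra k S] (φ : R →ₐ[k] S) :
    SchemeHomOver (specStr k S) (specStr k R) :=
  ⟨Spec.map (CommRingCat.ofHom φ.toRingHom), by
    rw [specStr, specStr, ← Spec.map_comp, ← CommRingCat.ofHom_comp]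
    congr 2
    exact φ.comp_algebraMap⟩

/-- `Cv` is the curve `C`: its two charts are open subschemes meeting in the common localisation. -/
structure Realization (Cv : Cover k) {C : Scheme.{u}} (c : C ⟶ Spec (CommRingCat.of k))
    (ε : SchemeHomOver (𝟙 (Spec (CommRingCat.of k))) c) : Type u where
  j₀ : Spec (CommRingCat.of Cv.A₀) ⟶ C
  j₁ : Spec (CommRingCat.of Cv.A₁) ⟶ C
  isOpenImmersion₀ : IsOpenImmersion j₀
  isOpenImmersion₁ : IsOpenImmersion j₁
  over₀ : j₀ ≫ c = specStr k Cv.A₀
  over₁ : j₁ ≫ c = specStr k Cv.A₁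
  isPullback : IsPullback (Spec.map (CommRingCat.ofHom Cv.res₀.toRingHom))
    (Spec.map (CommRingCat.ofHom Cv.res₁.toRingHom)) j₀ j₁
  range_union : Set.range j₀.base ∪ Set.range j₁.base = Set.univ
  base_eq : Spec.map (CommRingCat.ofHom Cv.base.toRingHom) ≫ j₀ = ε.1

/-- **The curve as a cover of the line.** -/
theorem exists_cover [IsAlgClosed k] {C : Scheme.{u}} (c : C ⟶ Spec (CommRingCat.of k))
    [IsProper c] [SmoothOfRelativeDimension 1 c] [IsIntegral C]
    (ε : SchemeHomOver (𝟙 (Spec (CommRingCat.of k))) c) :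
    ∃ Cv : Cover k, Nonempty (Realization Cv c ε) := by
  obtain ⟨x, hx, hP, hred⟩ := CurveA.exists_coordinate c (ε.1 (IsLocalRing.closedPoint k))
  have hx0 : x ≠ 0 := fun h => hx 0 (by rw [map_zero]; exact h)
  have hx' : ∀ a, x⁻¹ ≠ CurveA.const c a := CurveA.inv_ne_const c hx
  set U₀ := CurveA.regOpen x
  set U₁ := CurveA.regOpen x⁻¹
  have hU₀ : IsAffineOpen U₀ := (CurveA.isAffineOpen_regOpen c hx).1
  have hU₁ : IsAffineOpen U₁ := (CurveA.isAffineOpen_regOpen c hx').1
  have hbas : C.basicOpen (CurveA.sec x) = U₀ ⊓ U₁ := CurveA.basicOpen_sec hx0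
  have hW : IsAffineOpen (U₀ ⊓ U₁) := hbas ▸ hU₀.basicOpen _
  letI := CurveA.secAlg c U₀
  letI := CurveA.secAlg c U₁
  letI := CurveA.secAlg c (U₀ ⊓ U₁)
  haveI := CurveA.isDomain_sections (CurveA.gen_mem_regOpen (C := C) x)
  haveI := CurveA.isDomain_sections (CurveA.gen_mem_regOpen (C := C) x⁻¹)
  haveI : IsDomain Γ(C, U₀ ⊓ U₁) := CurveA.isDomain_sections (P := genericPoint C)
    (show genericPoint C ∈ U₀ ⊓ U₁ from
      ⟨CurveA.gen_mem_regOpen x, CurveA.gen_mem_regOpen x⁻¹⟩)
  haveI : Algebra.FiniteType k Γ(C, U₀) := CurveA.finiteType_secHom c hU₀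
  haveI : Algebra.FiniteType k Γ(C, U₁) := CurveA.finiteType_secHom c hU₁
  let res₀ : Γ(C, U₀) →ₐ[k] Γ(C, U₀ ⊓ U₁) := CurveA.resAlg c inf_le_left
  let res₁ : Γ(C, U₁) →ₐ[k] Γ(C, U₀ ⊓ U₁) := CurveA.resAlg c inf_le_right
  have hmul : res₀ (CurveA.sec x) * res₁ (CurveA.sec x⁻¹) = 1 := CurveA.res_mul_res hx0
  have haway₀ : letI := res₀.toRingHom.toAlgebra
      IsLocalization.Away (CurveA.sec x) Γ(C, U₀ ⊓ U₁) :=
    CurveA.away_regOpen hx0 hU₀ inf_le_left
  have haway₁ : letI := res₁.toRingHom.toAlgebra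
      IsLocalization.Away (CurveA.sec x⁻¹) Γ(C, U₀ ⊓ U₁) :=
    hU₁.isLocalization_of_eq_basicOpen (CurveA.sec x⁻¹) (homOfLE inf_le_right)
      (by rw [CurveA.basicOpen_sec (inv_ne_zero hx0), inv_inv, inf_comm])
  obtain ⟨n, b₀, hb₀⟩ := CurveA.exists_basis_regOpen c hx
  obtain ⟨m, b₁, hb₁⟩ := CurveA.exists_basis_regOpen c hx'
  have hspan : Ideal.span {res₀ (CurveA.sec x) - 1} = Ideal.span {res₁ (CurveA.sec x⁻¹) - 1} := by
    rw [Ideal.span_singleton_eq_span_singleton]
    refine ⟨(Units.mkOfMulEqOne _ _ ((mul_comm _ _).trans hmul)) * -1, ?_⟩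
    rw [Units.val_mul, Units.val_mkOfMulEqOne, Units.val_neg, Units.val_one]
    linear_combination (-1 : Γ(C, U₀ ⊓ U₁)) * hmul
  obtain rfl : n = m := by
    have e₀ := (CurveA.finrank_fibre hb₀ 1).2
    have e₁ := (CurveA.finrank_fibre hb₁ 1).2
    rw [map_one] at e₀ e₁
    rw [← e₀, ← e₁, CurveA.finrank_quotient_away res₀ _ haway₀,
      CurveA.finrank_quotient_away res₁ _ haway₁, hspan]
  obtain ⟨pt, hpt₁, hpt₂, hpt₃⟩ := CurveA.exists_points hb₀ hred
  have hP₀ : ε.1 (IsLocalRing.closedPoint k) ∈ U₀ := C.basicOpen_le _ hP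
  obtain ⟨β, hβ₁, hβ₂, hβ₃⟩ := CurveA.exists_point c hU₀ ε.1 ε.2 hP₀
  let base : Γ(C, U₀) →ₐ[k] k := { β with commutes' := hβ₁ }
  let Cv : Cover k :=
    { A₀ := Γ(C, U₀)
      A₁ := Γ(C, U₁)
      A := Γ(C, U₀ ⊓ U₁)
      res₀ := res₀
      res₁ := res₁
      x := CurveA.sec x
      y := CurveA.sec x⁻¹
      x_mul_y := hmul
      away₀ := haway₀
      away₁ := haway₁
      rank := n
      basis₀ := b₀
      basis₀_bijective := hb₀
      basis₁ := b₁
      basis₁_bijective := hb₁
      pt := pt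
      pt_x := hpt₁
      pt_surjective := hpt₂
      pt_ker := hpt₃
      base := base
      base_x := hβ₃ _ hP
      global := fun a₀ a₁ h => CurveA.exists_eq_const c a₀ a₁ h
      dedekind₀ := fun K _ _ _ =>
        CurveA.isDedekindDomain_baseChange (CurveA.locally_secHom c hU₀) K
      dedekind₁ := fun K _ _ _ =>
        CurveA.isDedekindDomain_baseChange (CurveA.locally_secHom c hU₁) K }
  refine ⟨Cv, ⟨
    { j₀ := hU₀.fromSpec
      j₁ := hU₁.fromSpec
      isOpenImmersion₀ := inferInstance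
      isOpenImmersion₁ := inferInstance
      over₀ := CurveA.fromSpec_comp c hU₀
      over₁ := CurveA.fromSpec_comp c hU₁
      isPullback := CurveA.isPullback_fromSpec hU₀ hU₁ hW
      range_union := ?_
      base_eq := hβ₂ }⟩⟩
  refine Set.eq_univ_of_forall fun P => ?_
  rcases CurveA.mem_regOpen_or_inv c x P with h | h
  · exact Or.inl (by rw [← SetLike.mem_coe, ← hU₀.range_fromSpec] at h; exact h)
  · exact Or.inr (by rw [← SetLike.mem_coe, ← hU₁.range_fromSpec] at h; exact h)

end FLTAgent.JacRep
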