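import Mathlib.RingTheory.PicardGroup
import Mathlib.RingTheory.DedekindDomain.Basic
import Mathlib.RingTheory.TensorProduct.Basic
import Mathlib.RingTheory.Localization.Away.Basic
import Mathlib.FieldTheory.IsAlgClosed.Basic
import Mathlib.Algebra.Polynomial.AlgebraMap

/-!
# Curves as covers of the line, and bundles on them

The algebraic model used to construct the Jacobian of a curve by charts of acyclic twists.
* `Cover k`: a curve over `k` as two affine charts `A₀ ∋ x`, `A₁ ∋ y = 1/x`, free over their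
  coordinates, glued along the common localisation `A`, with a base point.
* `Bundle C R`: a line bundle on `C × Spec R` as a glued triple of invertible modules, with
  `Bundle.Iso`, `Bundle.IsPullback` (semilinear maps with spanning image), `Bundle.IsRigidified`
  (trivial along the base point).
* `Bundle.diff`, `Bundle.Acyclic`, `Bundle.euler`: cohomology by the two-chart difference map.
-/

set_option autoImplicit false
set_option linter.style.haveILetI false

noncomputable section

open scoped TensorProduct Polynomial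

universe u

namespace FLTAgent.JacRep

/-- An integral curve as a finite cover of the line: charts `A₀ ∋ x`, `A₁ ∋ y = 1/x`, both free
over the polynomials in their coordinate, with common localisation `A`, the fibre `x = 0` being
`rank` distinct points, a base point, only constants as global functions, and Dedekind charts over
every algebraically closed extension. -/
structure Cover (k : Type u) [Field k] : Type (u + 1) where
  A₀ : Type u
  A₁ : Type u
  A : Type u
  [instCommRing₀ : CommRing A₀]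
  [instCommRing₁ : CommRing A₁]
  [instCommRing : CommRing A]
  [instAlgebra₀ : Algebra k A₀]
  [instAlgebra₁ : Algebra k A₁]
  [instAlgebra : Algebra k A]
  res₀ : A₀ →ₐ[k] A
  res₁ : A₁ →ₐ[k] A
  x : A₀
  y : A₁
  x_mul_y : res₀ x * res₁ y = 1
  away₀ : letI := res₀.toRingHom.toAlgebra; IsLocalization.Away x A
  away₁ : letI := res₁.toRingHom.toAlgebra; IsLocalization.Away y A
  rank : ℕ
  basis₀ : Fin rank → A₀
  basis₀_bijective :
    Function.Bijective fun c : Fin rank → k[X] => ∑ i, Polynomial.aeval x (c i) * basis₀ i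
  basis₁ : Fin rank → A₁
  basis₁_bijective :
    Function.Bijective fun c : Fin rank → k[X] => ∑ i, Polynomial.aeval y (c i) * basis₁ i
  pt : Fin rank → A₀ →ₐ[k] k
  pt_x : ∀ i, pt i x = 0
  pt_surjective : ∀ v : Fin rank → k, ∃ a, ∀ i, pt i a = v i
  pt_ker : ∀ a, (∀ i, pt i a = 0) → x ∣ a
  base : A₀ →ₐ[k] k
  base_x : base x ≠ 0
  global : ∀ a₀ a₁, res₀ a₀ = res₁ a₁ → ∃ c : k, a₀ = algebraMap k A₀ c
  dedekind₀ : ∀ (K : Type u) [Field K] [IsAlgClosed K] [Algebra k K],
    IsDedekindDomain (K ⊗[k] A₀)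
  dedekind₁ : ∀ (K : Type u) [Field K] [IsAlgClosed K] [Algebra k K],
    IsDedekindDomain (K ⊗[k] A₁)

attribute [instance] Cover.instCommRing₀ Cover.instCommRing₁ Cover.instCommRing
  Cover.instAlgebra₀ Cover.instAlgebra₁ Cover.instAlgebra

variable {k : Type u} [Field k] (C : Cover k) (R : Type u) [CommRing R] [Algebra k R]

/-- The first chart over `R`. -/
abbrev Cover.B₀ : Type u := R ⊗[k] C.A₀

/-- The second chart over `R`. -/
abbrev Cover.B₁ : Type u := R ⊗[k] C.A₁

/-- The overlap over `R`. -/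
abbrev Cover.B : Type u := R ⊗[k] C.A

/-- Restriction from the first chart. -/
def Cover.resB₀ : C.B₀ R →+* C.B R :=
  (Algebra.TensorProduct.map (AlgHom.id k R) C.res₀).toRingHom

/-- Restriction from the second chart. -/
def Cover.resB₁ : C.B₁ R →+* C.B R :=
  (Algebra.TensorProduct.map (AlgHom.id k R) C.res₁).toRingHom

/-- The coordinate on the first chart over `R`. -/
def Cover.xB : C.B₀ R := 1 ⊗ₜ C.x

/-- The coordinate on the second chart over `R`. -/
def Cover.yB : C.B₁ R := 1 ⊗ₜ C.y

/-- The base point over `R`. -/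
def Cover.baseB : C.B₀ R →+* R :=
  ((Algebra.TensorProduct.rid k k R).toAlgHom.comp
    (Algebra.TensorProduct.map (AlgHom.id k R) C.base)).toRingHom

/-- The point `i` of the fibre `x = 0` over `R`. -/
def Cover.ptB (i : Fin C.rank) : C.B₀ R →+* R :=
  ((Algebra.TensorProduct.rid k k R).toAlgHom.comp
    (Algebra.TensorProduct.map (AlgHom.id k R) (C.pt i))).toRingHom

variable {R}
variable {R' : Type u} [CommRing R'] [Algebra k R']

/-- Change of coefficients on the first chart. -/
def Cover.mapB₀ (φ : R →ₐ[k] R') : C.B₀ R →+* C.B₀ R' :=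
  (Algebra.TensorProduct.map φ (AlgHom.id k C.A₀)).toRingHom

/-- Change of coefficients on the second chart. -/
def Cover.mapB₁ (φ : R →ₐ[k] R') : C.B₁ R →+* C.B₁ R' :=
  (Algebra.TensorProduct.map φ (AlgHom.id k C.A₁)).toRingHom

/-- Change of coefficients on the overlap. -/
def Cover.mapB (φ : R →ₐ[k] R') : C.B R →+* C.B R' :=
  (Algebra.TensorProduct.map φ (AlgHom.id k C.A)).toRingHom

variable (R) in
/-- A line bundle over `C × Spec R`: invertible modules on the charts and on the overlap, the
restrictions being localisations at the coordinates. -/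
structure Bundle : Type (u + 1) where
  M₀ : Type u
  M₁ : Type u
  M : Type u
  [addCommGroup₀ : AddCommGroup M₀]
  [addCommGroup₁ : AddCommGroup M₁]
  [addCommGroup : AddCommGroup M]
  [module₀ : Module (C.B₀ R) M₀]
  [module₁ : Module (C.B₁ R) M₁]
  [module : Module (C.B R) M]
  [invertible₀ : Module.Invertible (C.B₀ R) M₀]
  [invertible₁ : Module.Invertible (C.B₁ R) M₁]
  [invertible : Module.Invertible (C.B R) M]
  ι₀ : M₀ →ₛₗ[C.resB₀ R] M
  ι₁ : M₁ →ₛₗ[C.resB₁ R] M
  inj₀ : Function.Injective ι₀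
  inj₁ : Function.Injective ι₁
  loc₀ : ∀ m : M, ∃ (n : ℕ) (m₀ : M₀), C.resB₀ R (C.xB R) ^ n • m = ι₀ m₀
  loc₁ : ∀ m : M, ∃ (n : ℕ) (m₁ : M₁), C.resB₁ R (C.yB R) ^ n • m = ι₁ m₁

attribute [instance] Bundle.addCommGroup₀ Bundle.addCommGroup₁ Bundle.addCommGroup
  Bundle.module₀ Bundle.module₁ Bundle.module Bundle.invertible₀ Bundle.invertible₁
  Bundle.invertible

variable {C}

namespace Bundle

/-- Isomorphisms of bundles. -/
def Iso (E E' : Bundle C R) : Prop :=
  ∃ (e₀ : E.M₀ ≃ₗ[C.B₀ R] E'.M₀) (e₁ : E.M₁ ≃ₗ[C.B₁ R] E'.M₁) (e : E.M ≃ₗ[C.B R] E'.M),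
    (∀ m, e (E.ι₀ m) = E'.ι₀ (e₀ m)) ∧ ∀ m, e (E.ι₁ m) = E'.ι₁ (e₁ m)

/-- `E'` is the pullback of `E` along `φ`: compatible maps with spanning images. (Maps of
invertible modules with spanning image induce isomorphisms after extension of scalars.) -/
def IsPullback (φ : R →ₐ[k] R') (E : Bundle C R) (E' : Bundle C R') : Prop :=
  ∃ (f₀ : E.M₀ →ₛₗ[C.mapB₀ φ] E'.M₀) (f₁ : E.M₁ →ₛₗ[C.mapB₁ φ] E'.M₁)
    (f : E.M →ₛₗ[C.mapB φ] E'.M),
    Submodule.span (C.B₀ R') (Set.range f₀) = ⊤ ∧ Submodule.span (C.B₁ R') (Set.range f₁) = ⊤ ∧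
      (∀ m, f (E.ι₀ m) = E'.ι₀ (f₀ m)) ∧ ∀ m, f (E.ι₁ m) = E'.ι₁ (f₁ m)

/-- Trivial along the base point. -/
def IsRigidified (E : Bundle C R) : Prop :=
  ∃ f : E.M₀ →ₛₗ[C.baseB R] R, Function.Surjective f

/-- The difference map `(a, b) ↦ a - b` to the overlap. -/
def diff (E : Bundle C R) : E.M₀ × E.M₁ →+ E.M :=
  E.ι₀.toAddMonoidHom.comp (AddMonoidHom.fst _ _) -
    E.ι₁.toAddMonoidHom.comp (AddMonoidHom.snd _ _)

/-- No cohomology. -/
def Acyclic (E : Bundle C R) : Prop := Function.Bijective E.diff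

/-- `R` acts on the first chart. -/
@[reducible] def rModule₀ (E : Bundle C R) : Module R E.M₀ :=
  Module.compHom E.M₀ (Algebra.TensorProduct.includeLeftRingHom : R →+* C.B₀ R)

/-- `R` acts on the second chart. -/
@[reducible] def rModule₁ (E : Bundle C R) : Module R E.M₁ :=
  Module.compHom E.M₁ (Algebra.TensorProduct.includeLeftRingHom : R →+* C.B₁ R)

/-- `R` acts on the overlap. -/
@[reducible] def rModule (E : Bundle C R) : Module R E.M :=
  Module.compHom E.M (Algebra.TensorProduct.includeLeftRingHom : R →+* C.B R)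

/-- The difference map is linear. -/
def diffLin (E : Bundle C R) :
    letI := E.rModule₀; letI := E.rModule₁; letI := E.rModule
    E.M₀ × E.M₁ →ₗ[R] E.M :=
  letI := E.rModule₀; letI := E.rModule₁; letI := E.rModule
  { E.diff with
    map_smul' := fun r m => by
      show E.ι₀ ((r ⊗ₜ[k] (1 : C.A₀)) • m.1) - E.ι₁ ((r ⊗ₜ[k] (1 : C.A₁)) • m.2) =
        (r ⊗ₜ[k] (1 : C.A)) • (E.ι₀ m.1 - E.ι₁ m.2)
      rw [LinearMap.map_smulₛₗ, LinearMap.map_smulₛₗ, smul_sub]
      simp [Cover.resB₀, Cover.resB₁] }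

/-- The Euler characteristic over a field (junk when the cohomology is infinite dimensional). -/
def euler {K : Type u} [Field K] [Algebra k K] (E : Bundle C K) : ℤ :=
  letI := E.rModule₀; letI := E.rModule₁; letI := E.rModule
  (Module.finrank K (LinearMap.ker E.diffLin) : ℤ) -
    Module.finrank K (E.M ⧸ LinearMap.range E.diffLin)

end Bundle

end FLTAgent.JacRep
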