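import Fermat.Prelude.Def_AlgebraicGeometry_RelPicardAlgEquivZeroCut
import Fermat.Agent.JacRep.Sheaf.IsoGlue

/-!
# Gluing isomorphisms of sheaves of modules

`Glue.exists_iso`: isomorphisms between the restrictions of two sheaves of modules to the members
of an open cover which agree on overlaps give an isomorphism of the sheaves. The agreement is
translated into equality of the maps on sections, where
`Glue.exists_iso_of_locApp` (in `Sheaf/IsoGlue`) applies.
-/

set_option autoImplicit false

noncomputable section

open CategoryTheory CategoryTheory.Limits AlgebraicGeometry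

universe u

namespace FLTAgent.JacRep.Glue

/-- Compatible local isomorphisms glue. -/
theorem exists_iso {X : Scheme.{u}} (M N : X.Modules) {ι : Type u} (U : ι → X.Opens)
    (hU : ⨆ i, U i = ⊤)
    (e : ∀ i, (Scheme.Modules.restrictFunctor (U i).ι).obj M ≅
      (Scheme.Modules.restrictFunctor (U i).ι).obj N)
    (he : ∀ i j (V : X.Opens) (hi : V ≤ U i) (hj : V ≤ U j),
      (Scheme.Modules.restrictFunctorCongr (X.homOfLE_ι hi).symm ≪≫
          Scheme.Modules.restrictFunctorComp (X.homOfLE hi) (U i).ι).app M ≪≫
        (Scheme.Modules.restrictFunctor (X.homOfLE hi)).mapIso (e i) ≪≫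
        (Scheme.Modules.restrictFunctorCongr (X.homOfLE_ι hi).symm ≪≫
          Scheme.Modules.restrictFunctorComp (X.homOfLE hi) (U i).ι).symm.app N =
      (Scheme.Modules.restrictFunctorCongr (X.homOfLE_ι hj).symm ≪≫
          Scheme.Modules.restrictFunctorComp (X.homOfLE hj) (U j).ι).app M ≪≫
        (Scheme.Modules.restrictFunctor (X.homOfLE hj)).mapIso (e j) ≪≫
        (Scheme.Modules.restrictFunctorCongr (X.homOfLE_ι hj).symm ≪≫
          Scheme.Modules.restrictFunctorComp (X.homOfLE hj) (U j).ι).symm.app N) :
    Nonempty (M ≅ N) := by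
  obtain ⟨φ, -⟩ := exists_iso_of_locApp hU e fun i j W hi hj => by
    rw [locApp_eq_homOfLE hi, locApp_eq_homOfLE hj, he i j W hi hj]
  exact ⟨φ⟩

end FLTAgent.JacRep.Glue
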