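import Fermat.Agent.JacRep.Curve
import Fermat.Agent.JacRep.Ops
import Fermat.Agent.JacRep.Coh
import Fermat.Agent.JacRep.Glue
import Fermat.Agent.JacRep.Degree
import Fermat.Agent.JacRep.Sheaf.Small
import Fermat.Agent.JacRep.Sheaf.Classes
import Fermat.Agent.JacRep.Dict.Base
import Fermat.Agent.JacRep.Dict.BaseChange
import Fermat.Agent.JacRep.Dict.Extend
import Fermat.Agent.JacRep.Dict.HomGlue

/-!
# The dictionary between sheaves and bundles

For a realization `W` of a cover as the curve `C`:
* `Dictionary W` and `nonempty_dictionary`: rigidified invertible modules on `C × Spec R`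
  correspond to rigidified bundles, compatibly with isomorphisms, units and pullbacks; the functor
  takes sections on the two charts and their overlap (`Dict/*`).
* `classes_ext`, `exists_glue`: classes of rigidified modules satisfy descent for open covers of
  the base, by rigidity along the section (`Sheaf/*`).
* `small_classes`: the classes form a small type.
-/

set_option autoImplicit false
set_option linter.style.haveILetI false

noncomputable section

open CategoryTheory CategoryTheory.Limits AlgebraicGeometry AlgebraicGeometry.RelPicard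
  NeronModelInfra

universe u

namespace FLTAgent.JacRep

variable {k : Type u} [Field k] {Cv : Cover k} {C : Scheme.{u}}
  {c : C ⟶ Spec (CommRingCat.of k)} {ε : SchemeHomOver (𝟙 (Spec (CommRingCat.of k))) c}

/-- The dictionary between rigidified modules on `C × Spec R` and rigidified bundles. -/
structure Dictionary (W : Realization Cv c ε) : Type (u + 1) where
  toBundle : ∀ (R : Type u) [CommRing R] [Algebra k R],
    RigidifiedLineBundle c ε (specStr k R) → Bundle Cv R
  isRigidified : ∀ (R : Type u) [CommRing R] [Algebra k R]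
    (M : RigidifiedLineBundle c ε (specStr k R)), (toBundle R M).IsRigidified
  iso_iff : ∀ (R : Type u) [CommRing R] [Algebra k R]
    (M M' : RigidifiedLineBundle c ε (specStr k R)),
    (toBundle R M).Iso (toBundle R M') ↔ Nonempty (M.L ≅ M'.L)
  surjective : ∀ (R : Type u) [CommRing R] [Algebra k R] (E : Bundle Cv R), E.IsRigidified →
    ∃ M : RigidifiedLineBundle c ε (specStr k R), (toBundle R M).Iso E
  unit_trivial : ∀ (R : Type u) [CommRing R] [Algebra k R],
    ∃ (e₀ : (toBundle R (RigidifiedLineBundle.unit _)).M₀ ≃ₗ[Cv.B₀ R] Cv.B₀ R)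
      (e₁ : (toBundle R (RigidifiedLineBundle.unit _)).M₁ ≃ₗ[Cv.B₁ R] Cv.B₁ R)
      (e : (toBundle R (RigidifiedLineBundle.unit _)).M ≃ₗ[Cv.B R] Cv.B R),
      (∀ m, e ((toBundle R (RigidifiedLineBundle.unit _)).ι₀ m) = Cv.resB₀ R (e₀ m)) ∧
        ∀ m, e ((toBundle R (RigidifiedLineBundle.unit _)).ι₁ m) = Cv.resB₁ R (e₁ m)
  isPullback : ∀ (R S : Type u) [CommRing R] [CommRing S] [Algebra k R] [Algebra k S]
    (φ : R →ₐ[k] S) (M : RigidifiedLineBundle c ε (specStr k R)),
    Bundle.IsPullback φ (toBundle R M) (toBundle S (M.pullbackAlong (specOver φ)))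

variable (W : Realization Cv c ε)

/-- The dictionary exists: take sections on the charts. -/
theorem nonempty_dictionary : Nonempty (Dictionary W) :=
  ⟨{ toBundle := fun R _ _ M => Dict.bundleOf W R M.L M.isInvertible
     isRigidified := fun R _ _ M => Dict.isRigidified_bundleOf W M.isInvertible M.rigidified
     iso_iff := fun R _ _ M M' => ⟨Dict.nonempty_iso_of_bundle W M.isInvertible M'.isInvertible,
       fun ⟨e⟩ => Dict.bundleOf_iso W R M.isInvertible M'.isInvertible e⟩
     surjective := fun R _ _ E hE => by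
       obtain ⟨N, hN, hiso⟩ := Dict.exists_module W E
       have hr : (Dict.bundleOf W R N hN).IsRigidified := by
         obtain ⟨e₀, e₁, e, -, -⟩ := hiso
         obtain ⟨f, hf⟩ := hE
         exact ⟨f.comp e₀.toLinearMap, hf.comp e₀.surjective⟩
       exact ⟨⟨N, hN, Dict.rigidified_of_isRigidified W hN hr⟩, hiso⟩
     unit_trivial := fun R _ _ => Dict.unit_trivial_bundleOf W R
     isPullback := fun R S _ _ _ _ φ M => Dict.isPullback_bundleOf W φ M.L M.isInvertible }⟩

/-- Classes agreeing on an affine cover of the base agree. -/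
theorem classes_ext (W : Realization Cv c ε) {T : Scheme.{u}} {t : T ⟶ Spec (CommRingCat.of k)}
    (M M' : RigidifiedLineBundle c ε t) {ι : Type u} (U : ι → Scheme.{u}) (j : ∀ i, U i ⟶ T)
    [∀ i, IsOpenImmersion (j i)] (hj : ∀ x, ∃ i, x ∈ Set.range (j i).base)
    (h : ∀ i, Nonempty ((M.pullbackAlong ⟨j i, rfl⟩).L ≅ (M'.pullbackAlong ⟨j i, rfl⟩).L)) :
    Nonempty (M.L ≅ M'.L) :=
  Over.nonempty_iso_of_agree W M M' U j hj h

/-- Compatible classes on an open cover glue. -/
theorem exists_glue (W : Realization Cv c ε) {T : Scheme.{u}} {t : T ⟶ Spec (CommRingCat.of k)}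
    {ι : Type u} (U : ι → T.Opens) (hU : ⨆ i, U i = ⊤)
    (M : ∀ i, RigidifiedLineBundle c ε ((U i).ι ≫ t))
    (h : ∀ i l, Nonempty
      (((M i).pullbackAlong
          ⟨T.homOfLE inf_le_left, by rw [← Category.assoc, Scheme.homOfLE_ι]⟩ :
          RigidifiedLineBundle c ε ((U i ⊓ U l).ι ≫ t)).L ≅
        ((M l).pullbackAlong
          ⟨T.homOfLE inf_le_right, by rw [← Category.assoc, Scheme.homOfLE_ι]⟩ :
          RigidifiedLineBundle c ε ((U i ⊓ U l).ι ≫ t)).L)) :
    ∃ N : RigidifiedLineBundle c ε t,
      ∀ i, Nonempty ((N.pullbackAlong ⟨(U i).ι, rfl⟩).L ≅ (M i).L) :=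
  Over.exists_bundle_of_cover W U hU M h

/-- The classes form a small type. -/
theorem small_classes (W : Realization Cv c ε) {T : Scheme.{u}}
    (t : T ⟶ Spec (CommRingCat.of k)) :
    Small.{u} (RigidifiedLineBundle.Classes c ε t) :=
  Glue.small_rigidifiedClasses t

end FLTAgent.JacRep
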