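import Fermat.Agent.JacRep.Dict
import Fermat.Agent.JacRep.Fibrewise.Forward
import Fermat.Agent.JacRep.Fibrewise.Backward
import Mathlib.FieldTheory.IsAlgClosed.AlgebraicClosure

/-!
# Fibrewise algebraic triviality is degree zero

`fibrewise_iff_degreeZero`: for a rigidified module on `C × Spec R`, being algebraically trivial on
every geometric fibre is the same as its bundle having degree zero. The forward direction passes to
an algebraic closure and uses `euler_of_isAlgEquivZero` (constancy of the Euler characteristic in
an algebraically trivial family); the converse uses `isAlgEquivZero_of_degreeZero` (such a bundle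
lies in a family built from point bundles).
-/

set_option autoImplicit false
set_option linter.style.haveILetI false

noncomputable section

open CategoryTheory CategoryTheory.Limits AlgebraicGeometry AlgebraicGeometry.RelPicard
  NeronModelInfra

universe u

namespace FLTAgent.JacRep

variable {k : Type u} [Field k] {Cv : Cover k} {C : Scheme.{u}}
  {c : C ⟶ Spec (CommRingCat.of k)} {ε : SchemeHomOver (𝟙 (Spec (CommRingCat.of k))) c}

/-- Fibrewise algebraic triviality is degree zero. -/
theorem fibrewise_iff_degreeZero [IsAlgClosed k] [IsProper c] (W : Realization Cv c ε)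
    (D : Dictionary W) {R : Type u} [CommRing R] [Algebra k R]
    (M : RigidifiedLineBundle c ε (specStr k R)) :
    FibrewiseAlgEquivZero M ↔ (D.toBundle R M).DegreeZero := by
  constructor
  · intro hM K _ _ φ E' U hE' hU
    let L := AlgebraicClosure K
    let ι : K →ₐ[k] L := IsScalarTower.toAlgHom k K L
    let ψ : R →ₐ[k] L := ι.comp φ
    have hN := (isAlgEquivZero_fibre_iff M ψ).1 (hM L (specOver ψ).1)
    have h₁ := euler_of_isAlgEquivZero D _ hN
    obtain ⟨E'', hE''⟩ := Bundle.exists_pullback ι E'
    obtain ⟨U', hU'⟩ := Bundle.exists_pullback ι U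
    rw [← Bundle.euler_pullback hE'', ← Bundle.euler_pullback hU',
      euler_congr (Bundle.isPullback_unique (Bundle.iso_refl _) (D.isPullback R L ψ M)
        (Bundle.isPullback_comp hE' hE'')),
      euler_congr (IsTrivial.iso (D.unit_trivial L) (IsTrivial.pullback D hU hU'))]
    exact h₁
  · intro hd K _ _ s
    obtain ⟨hA, hg⟩ := exists_algebra_specStr (s ≫ specStr k R)
    obtain ⟨φ, hφ⟩ := exists_specOver (R := R) (S := K) ⟨s, hg.symm⟩
    rw [← show (specOver φ).1 = s from congrArg Subtype.val hφ]
    refine (isAlgEquivZero_fibre_iff M φ).2 (isAlgEquivZero_of_degreeZero D _ ?_)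
    exact fun L _ _ ψ X U hX hU =>
      hd L _ X U (Bundle.isPullback_comp (D.isPullback R K φ M) hX) hU

end FLTAgent.JacRep
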